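import Mathlib

/-!
# S25 / block HILB / leaf H4: lifting along surjections with nil kernel

`R → S` a surjective ring homomorphism of commutative rings whose kernel consists of nilpotent
elements (e.g. `R → R ⧸ I` with `I ^ 2 = ⊥`).

* `bijective_of_bijective_mod` : a linear map between finite modules with finite projective target
  which is bijective modulo a nil ideal is bijective.
* `ker_tensorProductMk_of_surjective` : kernel of `M → S ⊗[R] M`.
* `exists_linearEquiv_lift` : isomorphisms `S ⊗ P ≃ S ⊗ P'` lift to isomorphisms `P ≃ P'`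
  (`P`, `P'` finite projective).
* `exists_projective_lift` : every finite projective `S`-module is `S ⊗[R] P` for a finite
  projective `R`-module `P`.
* `exists_invertible_lift` : the same for invertible modules.
-/

set_option autoImplicit false
set_option linter.style.haveILetI false

open TensorProduct

namespace Fermat.Agent.S25.H971

universe u v w

section Nakayama

variable {R : Type*} [CommRing R]

/-- A linear map `f : P → P'` (`P` finite, `P'` finite projective) which is bijective modulo an
ideal `I` contained in the nilradical (more generally: in the Jacobson radical) is bijective. -/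
theorem bijective_of_bijective_mod {I : Ideal R} (hI : I ≤ (⊥ : Ideal R).jacobson)
    {P P' : Type*} [AddCommGroup P] [Module R P] [AddCommGroup P'] [Module R P']
    [Module.Finite R P] [Module.Finite R P'] [Module.Projective R P']
    (f : P →ₗ[R] P')
    (hsurj : ∀ y : P', ∃ x : P, y - f x ∈ I • (⊤ : Submodule R P'))
    (hinj : ∀ x : P, f x ∈ I • (⊤ : Submodule R P') → x ∈ I • (⊤ : Submodule R P)) :
    Function.Bijective f := by
  have hs : Function.Surjective f := by
    apply LinearMap.surjective_of_surjective_comp_mkQ f I hI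
    intro z
    obtain ⟨y, rfl⟩ := Submodule.mkQ_surjective _ z
    obtain ⟨x, hx⟩ := hsurj y
    refine ⟨x, ?_⟩
    simp only [LinearMap.coe_comp, Function.comp_apply]
    rw [eq_comm, ← sub_eq_zero, ← map_sub]
    exact (Submodule.Quotient.mk_eq_zero _).mpr hx
  refine ⟨?_, hs⟩
  obtain ⟨s, hsf⟩ := Module.projective_lifting_property f LinearMap.id hs
  -- the projection onto the kernel
  let π : P →ₗ[R] P := LinearMap.id - s ∘ₗ f
  have hπker : ∀ x, f (π x) = 0 := by
    intro x
    have h1 : f (s (f x)) = f x := by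
      have := congrArg (fun g => g (f x)) hsf
      simpa using this
    simp [π, h1]
  have hπfix : ∀ x, f x = 0 → π x = x := by
    intro x hx
    simp [π, hx]
  have hrange : LinearMap.range π = LinearMap.ker f := by
    apply le_antisymm
    · rintro _ ⟨x, rfl⟩
      exact hπker x
    · intro x hx
      exact ⟨x, hπfix x hx⟩
  have hfg : (LinearMap.ker f).FG := by
    rw [← hrange, LinearMap.range_eq_map]
    exact (Module.finite_def.mp ‹Module.Finite R P›).map π
  have hle : LinearMap.ker f ≤ I • LinearMap.ker f := by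
    intro x hx
    have hx' : x ∈ I • (⊤ : Submodule R P) := hinj x (by rw [LinearMap.mem_ker.mp hx]; exact zero_mem _)
    have h2 : π x ∈ (I • (⊤ : Submodule R P)).map π := Submodule.mem_map_of_mem hx'
    rw [Submodule.map_smul'', Submodule.map_top, hrange, hπfix x hx] at h2
    exact h2
  have hbot : LinearMap.ker f = ⊥ :=
    Submodule.eq_bot_of_le_smul_of_le_jacobson_bot I _ hfg hle hI
  exact LinearMap.ker_eq_bot.mp hbot

end Nakayama

section BaseChange

variable {R : Type*} {S : Type*} [CommRing R] [CommRing S] [Algebra R S]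

/-- Every element of `S ⊗[R] M` is of the form `1 ⊗ m` when `R → S` is surjective. -/
theorem exists_one_tmul_eq (hsurj : Function.Surjective (algebraMap R S))
    {M : Type*} [AddCommGroup M] [Module R M] (z : S ⊗[R] M) : ∃ m : M, (1 : S) ⊗ₜ[R] m = z := by
  induction z using TensorProduct.induction_on with
  | zero => exact ⟨0, by simp⟩
  | tmul s m =>
    obtain ⟨r, rfl⟩ := hsurj s
    refine ⟨r • m, ?_⟩
    rw [TensorProduct.tmul_smul, TensorProduct.smul_tmul', Algebra.smul_def, mul_one]
  | add x y hx hy =>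
    obtain ⟨a, rfl⟩ := hx
    obtain ⟨b, rfl⟩ := hy
    exact ⟨a + b, by rw [TensorProduct.tmul_add]⟩

/-- The kernel of `M → S ⊗[R] M` is `I • M`, `I = ker (R → S)`, when `R → S` is surjective. -/
theorem one_tmul_eq_zero_iff (hsurj : Function.Surjective (algebraMap R S))
    {M : Type*} [AddCommGroup M] [Module R M] (m : M) :
    (1 : S) ⊗ₜ[R] m = 0 ↔ m ∈ RingHom.ker (algebraMap R S) • (⊤ : Submodule R M) := by
  set I := RingHom.ker (algebraMap R S) with hIdef
  -- the `R`-linear equivalence `R ⧸ I ≃ S`
  let e : (R ⧸ I) ≃ₐ[R] S := Ideal.quotientKerAlgEquivOfSurjective (f := Algebra.ofId R S) hsurj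
  let E : (R ⧸ I) ⊗[R] M ≃ₗ[R] S ⊗[R] M := TensorProduct.congr e.toLinearEquiv (LinearEquiv.refl R M)
  have hE : E ((1 : R ⧸ I) ⊗ₜ[R] m) = (1 : S) ⊗ₜ[R] m := by
    simp [E]
  have hk := LinearMap.ker_tensorProductMk (R := R) (Q := M) (I := I)
  constructor
  · intro h
    rw [← hk, LinearMap.mem_ker, TensorProduct.mk_apply]
    apply E.injective
    rw [hE, h, map_zero]
  · intro h
    rw [← hk, LinearMap.mem_ker, TensorProduct.mk_apply] at h
    rw [← hE, h, map_zero]

/-- **Isomorphisms lift.** `R → S` surjective with nil kernel, `P`, `P'` finite projective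
`R`-modules. Every `S`-linear isomorphism `S ⊗ P ≃ S ⊗ P'` is induced by an `R`-linear
isomorphism `P ≃ P'`. -/
theorem exists_linearEquiv_lift (hsurj : Function.Surjective (algebraMap R S))
    (hnil : ∀ x ∈ RingHom.ker (algebraMap R S), IsNilpotent x)
    {P P' : Type*} [AddCommGroup P] [Module R P] [AddCommGroup P'] [Module R P']
    [Module.Finite R P] [Module.Projective R P] [Module.Finite R P'] [Module.Projective R P']
    (φ : S ⊗[R] P ≃ₗ[S] S ⊗[R] P') :
    ∃ ψ : P ≃ₗ[R] P', ∀ x : P, φ ((1 : S) ⊗ₜ[R] x) = (1 : S) ⊗ₜ[R] ψ x := by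
  set I := RingHom.ker (algebraMap R S) with hIdef
  have hI : I ≤ (⊥ : Ideal R).jacobson := by
    intro x hx
    have : x ∈ nilradical R := mem_nilradical.mpr (hnil x hx)
    rw [Ideal.jacobson_bot]
    exact nilradical_le_jacobson R this
  -- the two `R`-linear maps into `S ⊗ P'`
  let g : P' →ₗ[R] S ⊗[R] P' := TensorProduct.mk R S P' 1
  let h : P →ₗ[R] S ⊗[R] P' := (φ.toLinearMap.restrictScalars R) ∘ₗ TensorProduct.mk R S P 1
  have hg : Function.Surjective g := fun z => exists_one_tmul_eq hsurj z
  obtain ⟨ψ₀, hψ₀⟩ := Module.projective_lifting_property g h hg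
  have hψ : ∀ x : P, φ ((1 : S) ⊗ₜ[R] x) = (1 : S) ⊗ₜ[R] ψ₀ x := by
    intro x
    have := congrArg (fun k => k x) hψ₀
    simpa [g, h] using this.symm
  have hbij : Function.Bijective ψ₀ := by
    apply bijective_of_bijective_mod hI ψ₀
    · intro y
      obtain ⟨x, hx⟩ := exists_one_tmul_eq hsurj (φ.symm ((1 : S) ⊗ₜ[R] y))
      refine ⟨x, ?_⟩
      rw [← one_tmul_eq_zero_iff hsurj, TensorProduct.tmul_sub, ← hψ, hx,
        LinearEquiv.apply_symm_apply, sub_self]
    · intro x hx
      rw [← one_tmul_eq_zero_iff hsurj] at hx ⊢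
      rw [← hψ] at hx
      exact φ.injective (by rw [hx, map_zero])
  exact ⟨LinearEquiv.ofBijective ψ₀ hbij, hψ⟩

end BaseChange

section Matrix

variable {R : Type*} [CommRing R]

theorem matrix_pow_apply_mem {n : Type*} [Fintype n] [DecidableEq n] (J : Ideal R)
    (M : Matrix n n R) (hM : ∀ i j, M i j ∈ J) (m : ℕ) : ∀ i j, (M ^ m) i j ∈ J ^ m := by
  induction m with
  | zero => intro i j; simp
  | succ m ih =>
    intro i j
    rw [pow_succ M, Matrix.mul_apply, pow_succ J]
    exact Ideal.sum_mem _ fun l _ => Ideal.mul_mem_mul (ih i l) (hM l j)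

/-- A square matrix over a commutative ring with nilpotent entries is nilpotent. -/
theorem matrix_isNilpotent_of_entries {n : Type*} [Fintype n] [DecidableEq n]
    (M : Matrix n n R) (hM : ∀ i j, IsNilpotent (M i j)) : IsNilpotent M := by
  classical
  let J : Ideal R := Ideal.span (Set.range fun ij : n × n => M ij.1 ij.2)
  have hJfg : J.FG := by
    refine ⟨Finset.univ.image fun ij : n × n => M ij.1 ij.2, ?_⟩
    simp [J]
  have hJle : J ≤ nilradical R :=
    Ideal.span_le.mpr (by rintro _ ⟨ij, rfl⟩; exact mem_nilradical.mpr (hM _ _))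
  obtain ⟨k, hk⟩ := hJfg.isNilpotent_iff_le_nilradical.mpr hJle
  refine ⟨k, ?_⟩
  ext i j
  have h := matrix_pow_apply_mem J M (fun i j => Ideal.subset_span ⟨(i, j), rfl⟩) k i j
  rw [hk] at h
  simpa using h

end Matrix

section Existence

variable {R : Type u} {S : Type v} [CommRing R] [CommRing S] [Algebra R S]

/-- **Finite projective modules lift.** `R → S` surjective with nil kernel. Every finite
projective `S`-module `Q` is isomorphic to `S ⊗[R] P` for a finite projective `R`-module `P`. -/
theorem exists_projective_lift (hsurj : Function.Surjective (algebraMap R S))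
    (hnil : ∀ x ∈ RingHom.ker (algebraMap R S), IsNilpotent x)
    (Q : Type w) [AddCommGroup Q] [Module S Q] [Module.Finite S Q] [Module.Projective S Q] :
    ∃ (P : Type u) (_ : AddCommGroup P) (_ : Module R P),
      Module.Finite R P ∧ Module.Projective R P ∧ Nonempty (S ⊗[R] P ≃ₗ[S] Q) := by
  classical
  obtain ⟨n, π, s, hπ, hs, hπs⟩ := Module.Finite.exists_comp_eq_id_of_projective S Q
  have hπs' : ∀ q, π (s q) = q := fun q => by
    have := congrArg (fun g => g q) hπs
    simpa using this
  -- the idempotent matrix over `S`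
  let E : Matrix (Fin n) (Fin n) S := LinearMap.toMatrix' (s ∘ₗ π)
  have hEmul : ∀ w : Fin n → S, E.mulVec w = s (π w) := fun w => by
    simp only [E, LinearMap.toMatrix'_mulVec, LinearMap.coe_comp, Function.comp_apply]
  have hE : IsIdempotentElem E := by
    show LinearMap.toMatrix' (s ∘ₗ π) * LinearMap.toMatrix' (s ∘ₗ π) =
      LinearMap.toMatrix' (s ∘ₗ π)
    rw [← LinearMap.toMatrix'_comp]
    congr 1
    apply LinearMap.ext
    intro w
    simp [hπs']
  let f : Matrix (Fin n) (Fin n) R →+* Matrix (Fin n) (Fin n) S := (algebraMap R S).mapMatrix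
  have hker : ∀ x ∈ RingHom.ker f, IsNilpotent x := by
    intro x hx
    apply matrix_isNilpotent_of_entries
    intro i j
    apply hnil
    rw [RingHom.mem_ker] at hx ⊢
    have := congrFun (congrFun hx i) j
    simpa [f] using this
  have hrange : E ∈ f.range := by
    refine ⟨Matrix.of fun i j => (hsurj (E i j)).choose, ?_⟩
    ext i j
    simp only [f, RingHom.mapMatrix_apply, Matrix.map_apply, Matrix.of_apply]
    exact (hsurj (E i j)).choose_spec
  obtain ⟨e, he, hfe⟩ := exists_isIdempotentElem_eq_of_ker_isNilpotent f hker E hrange hE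
  have hfe' : e.map (algebraMap R S) = E := hfe
  have hee : ∀ v : Fin n → R, e.mulVec (e.mulVec v) = e.mulVec v := fun v => by
    rw [Matrix.mulVec_mulVec, he.eq]
  -- the lift
  let P : Submodule R (Fin n → R) := LinearMap.range (Matrix.toLin' e)
  have hPfix : ∀ v ∈ P, e.mulVec v = v := by
    rintro _ ⟨w, rfl⟩
    simp only [Matrix.toLin'_apply]
    exact hee w
  let proj : (Fin n → R) →ₗ[R] P := (Matrix.toLin' e).rangeRestrict
  have hproj : ∀ v : P, proj v.1 = v := by
    intro v
    apply Subtype.ext
    simp only [proj, LinearMap.codRestrict_apply, Matrix.toLin'_apply, LinearMap.rangeRestrict]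
    exact hPfix v.1 v.2
  have hPfin : Module.Finite R P := Module.Finite.range _
  have hPproj : Module.Projective R P :=
    Module.Projective.of_split P.subtype proj (LinearMap.ext fun v => by simpa using hproj v)
  refine ⟨P, inferInstance, inferInstance, hPfin, hPproj, ?_⟩
  -- `Q` as an `R`-module
  letI : Module R Q := Module.compHom Q (algebraMap R S)
  haveI : IsScalarTower R S Q := IsScalarTower.of_algebraMap_smul fun r q => rfl
  let ι : (Fin n → R) →ₗ[R] (Fin n → S) := (Algebra.linearMap R S).compLeft (Fin n)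
  have hι : ∀ v : Fin n → R, ι (e.mulVec v) = E.mulVec (ι v) := by
    intro v
    ext i
    simp only [ι, LinearMap.compLeft_apply, Function.comp_apply, Algebra.linearMap_apply, ← hfe']
    rw [Matrix.mulVec, Matrix.mulVec, dotProduct, dotProduct, map_sum]
    simp [Matrix.map_apply]
  let θ : P →ₗ[R] Q := (π.restrictScalars R) ∘ₗ ι ∘ₗ P.subtype
  let Φ : S ⊗[R] P →ₗ[S] Q := θ.liftBaseChange S
  have hΦ : ∀ v : P, Φ ((1 : S) ⊗ₜ[R] v) = π (ι v.1) := fun v => by
    simp [Φ, θ]
  have hΦbij : Function.Bijective Φ := by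
    constructor
    · -- injective
      rw [injective_iff_map_eq_zero]
      intro z hz
      obtain ⟨v, rfl⟩ := exists_one_tmul_eq hsurj z
      rw [hΦ] at hz
      rw [one_tmul_eq_zero_iff hsurj]
      have hιv : ι v.1 = 0 := by
        have h1 : ι v.1 = E.mulVec (ι v.1) := by
          conv_lhs => rw [← hPfix v.1 v.2]
          exact hι v.1
        rw [h1, hEmul, hz, map_zero]
      have hmem : ∀ j, v.1 j ∈ RingHom.ker (algebraMap R S) := by
        intro j
        have := congrFun hιv j
        simpa [ι, RingHom.mem_ker] using this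
      have hv : v = ∑ j, (v.1 j) • proj (Pi.single j (1 : R)) := by
        rw [← hproj v]
        conv_lhs => rw [pi_eq_sum_univ' v.1]
        simp only [map_sum, map_smul]
        congr 1
        ext j : 1
        congr 2
        rw [hproj]
      rw [hv]
      exact Submodule.sum_mem _ fun j _ =>
        Submodule.smul_mem_smul (hmem j) Submodule.mem_top
    · -- surjective
      intro q
      have hw : ∃ v : Fin n → R, ι v = s q := by
        refine ⟨fun i => (hsurj (s q i)).choose, ?_⟩
        ext i
        simp only [ι, LinearMap.compLeft_apply, Function.comp_apply, Algebra.linearMap_apply]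
        exact (hsurj (s q i)).choose_spec
      obtain ⟨v, hv⟩ := hw
      refine ⟨(1 : S) ⊗ₜ[R] proj v, ?_⟩
      rw [hΦ]
      have : (proj v).1 = e.mulVec v := by
        simp [proj, LinearMap.rangeRestrict]
      rw [this, hι, hv, hEmul, hπs', hπs']
  exact ⟨LinearEquiv.ofBijective Φ hΦbij⟩

/-- **Invertible modules lift.** `R → S` surjective with nil kernel. Every invertible `S`-module
`Q` is isomorphic to `S ⊗[R] P` for an invertible `R`-module `P`. -/
theorem exists_invertible_lift (hsurj : Function.Surjective (algebraMap R S))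
    (hnil : ∀ x ∈ RingHom.ker (algebraMap R S), IsNilpotent x)
    (Q : Type w) [AddCommGroup Q] [Module S Q] [Module.Invertible S Q] :
    ∃ (P : Type u) (_ : AddCommGroup P) (_ : Module R P),
      Module.Invertible R P ∧ Nonempty (S ⊗[R] P ≃ₗ[S] Q) := by
  obtain ⟨P, _, _, hPf, hPp, ⟨φ⟩⟩ := exists_projective_lift hsurj hnil Q
  obtain ⟨P', _, _, hP'f, hP'p, ⟨φ'⟩⟩ := exists_projective_lift hsurj hnil (Module.Dual S Q)
  let Ψ : S ⊗[R] (P' ⊗[R] P) ≃ₗ[S] S ⊗[R] R :=
    (AlgebraTensorModule.distribBaseChange R S P' P) ≪≫ₗ (TensorProduct.congr φ' φ) ≪≫ₗ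
      (Module.Invertible.linearEquiv S Q) ≪≫ₗ (AlgebraTensorModule.rid R S S).symm
  obtain ⟨ψ, -⟩ := exists_linearEquiv_lift hsurj hnil Ψ
  exact ⟨P, inferInstance, inferInstance, Module.Invertible.right ψ, ⟨φ⟩⟩

/-- A finite projective lift of an invertible module is invertible. -/
theorem invertible_of_baseChange (hsurj : Function.Surjective (algebraMap R S))
    (hnil : ∀ x ∈ RingHom.ker (algebraMap R S), IsNilpotent x)
    (P : Type*) [AddCommGroup P] [Module R P] [Module.Finite R P] [Module.Projective R P]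
    [Module.Invertible S (S ⊗[R] P)] : Module.Invertible R P := by
  obtain ⟨P', _, _, hP'f, hP'p, ⟨φ'⟩⟩ :=
    exists_projective_lift hsurj hnil (Module.Dual S (S ⊗[R] P))
  let Ψ : S ⊗[R] (P' ⊗[R] P) ≃ₗ[S] S ⊗[R] R :=
    (AlgebraTensorModule.distribBaseChange R S P' P) ≪≫ₗ
      (TensorProduct.congr φ' (LinearEquiv.refl S (S ⊗[R] P))) ≪≫ₗ
      (Module.Invertible.linearEquiv S (S ⊗[R] P)) ≪≫ₗ (AlgebraTensorModule.rid R S S).symm
  obtain ⟨ψ, -⟩ := exists_linearEquiv_lift hsurj hnil Ψ
  exact Module.Invertible.right ψ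

end Existence

section Quotient

variable {R : Type u} [CommRing R] (I : Ideal R)

theorem quotient_hyps (hI : I ≤ nilradical R) :
    Function.Surjective (algebraMap R (R ⧸ I)) ∧
      ∀ x ∈ RingHom.ker (algebraMap R (R ⧸ I)), IsNilpotent x := by
  refine ⟨Ideal.Quotient.mk_surjective, fun x hx => ?_⟩
  rw [Ideal.Quotient.algebraMap_eq, Ideal.mk_ker] at hx
  exact mem_nilradical.mp (hI hx)

theorem le_nilradical_of_pow_eq_bot {n : ℕ} (hI : I ^ n = ⊥) : I ≤ nilradical R := by
  intro x hx
  refine mem_nilradical.mpr ⟨n, ?_⟩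
  have : x ^ n ∈ I ^ n := Ideal.pow_mem_pow hx n
  rw [hI] at this
  simpa using this

/-- H4, quotient form, objects: invertible modules over `R ⧸ I` (`I` nil, e.g. `I ^ 2 = ⊥`) lift
to invertible modules over `R`. -/
theorem exists_invertible_lift_quotient (hI : I ≤ nilradical R)
    (Q : Type w) [AddCommGroup Q] [Module (R ⧸ I) Q] [Module.Invertible (R ⧸ I) Q] :
    ∃ (P : Type u) (_ : AddCommGroup P) (_ : Module R P),
      Module.Invertible R P ∧ Nonempty ((R ⧸ I) ⊗[R] P ≃ₗ[R ⧸ I] Q) :=
  exists_invertible_lift (quotient_hyps I hI).1 (quotient_hyps I hI).2 Q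

/-- H4, quotient form, objects: finite projective modules over `R ⧸ I` lift. -/
theorem exists_projective_lift_quotient (hI : I ≤ nilradical R)
    (Q : Type w) [AddCommGroup Q] [Module (R ⧸ I) Q] [Module.Finite (R ⧸ I) Q]
    [Module.Projective (R ⧸ I) Q] :
    ∃ (P : Type u) (_ : AddCommGroup P) (_ : Module R P),
      Module.Finite R P ∧ Module.Projective R P ∧ Nonempty ((R ⧸ I) ⊗[R] P ≃ₗ[R ⧸ I] Q) :=
  exists_projective_lift (quotient_hyps I hI).1 (quotient_hyps I hI).2 Q

/-- H4, quotient form, morphisms: isomorphisms between base changes of finite projective modules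
lift. -/
theorem exists_linearEquiv_lift_quotient (hI : I ≤ nilradical R)
    {P P' : Type*} [AddCommGroup P] [Module R P] [AddCommGroup P'] [Module R P']
    [Module.Finite R P] [Module.Projective R P] [Module.Finite R P'] [Module.Projective R P']
    (φ : (R ⧸ I) ⊗[R] P ≃ₗ[R ⧸ I] (R ⧸ I) ⊗[R] P') :
    ∃ ψ : P ≃ₗ[R] P', ∀ x : P, φ ((1 : R ⧸ I) ⊗ₜ[R] x) = (1 : R ⧸ I) ⊗ₜ[R] ψ x :=
  exists_linearEquiv_lift (quotient_hyps I hI).1 (quotient_hyps I hI).2 φ

end Quotient

/-! ## The leaves H4a, H4b, H4c in the exact shape of the squad skeleton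
(`origin/helper11:coord/S25-HILB-skeleton.lean`) -/

section Skeleton

theorem le_nilradical_of_isNilpotent {R : Type u} [CommRing R] (I : Ideal R)
    (hI : IsNilpotent I) : I ≤ nilradical R := by
  obtain ⟨n, hn⟩ := hI
  exact le_nilradical_of_pow_eq_bot I hn

/-- **H4a.** Finite projective modules lift along a surjection with nilpotent kernel. -/
theorem H4a {R : Type u} [CommRing R] (I : Ideal R) (hI : IsNilpotent I)
    (M : Type u) [AddCommGroup M] [Module (R ⧸ I) M] [Module.Finite (R ⧸ I) M]
    [Module.Projective (R ⧸ I) M] :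
    ∃ (N : Type u) (_ : AddCommGroup N) (_ : Module R N), Module.Finite R N ∧
      Module.Projective R N ∧ Nonempty (((R ⧸ I) ⊗[R] N) ≃ₗ[R ⧸ I] M) :=
  exists_projective_lift_quotient I (le_nilradical_of_isNilpotent I hI) M

/-- **H4b.** Isomorphisms between finite projective modules lift along a surjection with
nilpotent kernel. -/
theorem H4b {R : Type u} [CommRing R] (I : Ideal R) (hI : IsNilpotent I)
    (N N' : Type u) [AddCommGroup N] [Module R N] [AddCommGroup N'] [Module R N']
    [Module.Finite R N] [Module.Projective R N] [Module.Finite R N'] [Module.Projective R N']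
    (e : ((R ⧸ I) ⊗[R] N) ≃ₗ[R ⧸ I] ((R ⧸ I) ⊗[R] N')) :
    ∃ e' : N ≃ₗ[R] N', ∀ n : N, e ((1 : R ⧸ I) ⊗ₜ[R] n) = (1 : R ⧸ I) ⊗ₜ[R] e' n :=
  exists_linearEquiv_lift_quotient I (le_nilradical_of_isNilpotent I hI) e

/-- **H4c.** A finite projective lift of an invertible module is invertible. -/
theorem H4c {R : Type u} [CommRing R] (I : Ideal R)
    (hI : IsNilpotent I) (N : Type u) [AddCommGroup N] [Module R N] [Module.Finite R N]
    [Module.Projective R N] [Module.Invertible (R ⧸ I) ((R ⧸ I) ⊗[R] N)] :
    Module.Invertible R N :=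
  invertible_of_baseChange (quotient_hyps I (le_nilradical_of_isNilpotent I hI)).1
    (quotient_hyps I (le_nilradical_of_isNilpotent I hI)).2 N

end Skeleton

end Fermat.Agent.S25.H971
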