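import Fermat.Agent.S25.H971.GlueLift

/-!
# S25 / block ALGDEF: `Stmt.AlgDef`

Gluing data on `C_{A/I}` lift to gluing data on `C_A` when `I ^ 2 = ⊥` (indeed for any nil ideal
`I`).  The curve-chart hypotheses are not needed.
-/

set_option autoImplicit false
set_option linter.style.haveILetI false

open TensorProduct

namespace Fermat.Agent.S25.H971

universe u

section Curve

variable (k : Type u) [Field k]

theorem tensorMapLeft_tmul {A A' : Type u} [CommRing A] [Algebra k A] [CommRing A']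
    [Algebra k A'] (φ : A →ₐ[k] A') (B : Type u) [CommRing B] [Algebra k B] (a : A) (b : B) :
    tensorMapLeft k φ B (a ⊗ₜ[k] b) = φ a ⊗ₜ[k] b := by
  simp [tensorMapLeft]

theorem algebraMap_tensor_tmul (A B B' : Type u) [CommRing A] [Algebra k A] [CommRing B]
    [CommRing B'] [Algebra k B] [Algebra k B'] [Algebra B B'] [IsScalarTower k B B'] (a : A)
    (b : B) :
    algebraMap (A ⊗[k] B) (A ⊗[k] B') (a ⊗ₜ[k] b) = a ⊗ₜ[k] algebraMap B B' b := by
  change tensorMapRight k A B B' (a ⊗ₜ[k] b) = _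
  simp [tensorMapRight]

/-- The maps `tensorMapLeft` form a morphism of cospans. -/
theorem tensorMapLeft_comp_algebraMap {A A' : Type u} [CommRing A] [Algebra k A] [CommRing A']
    [Algebra k A'] (φ : A →ₐ[k] A') (B B' : Type u) [CommRing B] [CommRing B'] [Algebra k B]
    [Algebra k B'] [Algebra B B'] [IsScalarTower k B B'] :
    (tensorMapLeft k φ B').comp (algebraMap (A ⊗[k] B) (A ⊗[k] B')) =
      (algebraMap (A' ⊗[k] B) (A' ⊗[k] B')).comp (tensorMapLeft k φ B) := by
  refine RingHom.ext fun z => ?_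
  induction z using TensorProduct.induction_on with
  | zero => simp
  | tmul a b =>
    rw [RingHom.comp_apply, RingHom.comp_apply, algebraMap_tensor_tmul, tensorMapLeft_tmul,
      tensorMapLeft_tmul, algebraMap_tensor_tmul]
  | add x y hx hy => rw [map_add, map_add, hx, hy]

variable {A : Type u} [CommRing A] [Algebra k A] (I : Ideal A) (B : Type u) [CommRing B]
  [Algebra k B]

theorem tensorMapLeft_mk_surjective :
    Function.Surjective (tensorMapLeft k (Ideal.Quotient.mkₐ k I) B) :=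
  Algebra.TensorProduct.map_surjective _ _ (Ideal.Quotient.mkₐ_surjective k I)
    Function.surjective_id

theorem ker_tensorMapLeft_mk :
    RingHom.ker (tensorMapLeft k (Ideal.Quotient.mkₐ k I) B) =
      I.map (Algebra.TensorProduct.includeLeft : A →ₐ[k] A ⊗[k] B) := by
  have h := Algebra.TensorProduct.rTensor_ker (R := k) (S := k) (C := B)
    (Ideal.Quotient.mkₐ k I) (Ideal.Quotient.mkₐ_surjective k I)
  have hk : RingHom.ker (Ideal.Quotient.mkₐ k I) = I :=
    Ideal.ext fun x => by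
      rw [RingHom.mem_ker]
      exact Ideal.Quotient.eq_zero_iff_mem
  rw [hk] at h
  exact h

theorem tensorMapLeft_mk_nil {n : ℕ} (hI : I ^ n = ⊥) :
    ∀ x ∈ RingHom.ker (tensorMapLeft k (Ideal.Quotient.mkₐ k I) B), IsNilpotent x := by
  intro x hx
  rw [ker_tensorMapLeft_mk] at hx
  refine ⟨n, ?_⟩
  have h : x ^ n ∈ (I.map (Algebra.TensorProduct.includeLeft : A →ₐ[k] A ⊗[k] B)) ^ n :=
    Ideal.pow_mem_pow hx n
  rw [← Ideal.map_pow, hI, Ideal.map_bot] at h
  simpa using h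

end Curve

section Statement

variable (k : Type u) [Field k] (B₀ B₁ B₀₁ : Type u) [CommRing B₀] [CommRing B₁] [CommRing B₀₁]
  [Algebra k B₀] [Algebra k B₁] [Algebra k B₀₁] [Algebra B₀ B₀₁] [Algebra B₁ B₀₁]
  [IsScalarTower k B₀ B₀₁] [IsScalarTower k B₁ B₀₁]

/-- Gluing data over `A ⧸ I` lift to gluing data over `A` for every nilpotent ideal `I`. -/
theorem exists_curveGD_lift {A : Type u} [CommRing A] [Algebra k A] (I : Ideal A) {n : ℕ}
    (hI : I ^ n = ⊥) (G₀ : CurveGD k B₀ B₁ B₀₁ (A ⧸ I)) :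
    ∃ G : CurveGD k B₀ B₁ B₀₁ A, CurveGD.IsBC (Ideal.Quotient.mkₐ k I) G G₀ :=
  exists_glueDatum_lift (tensorMapLeft k (Ideal.Quotient.mkₐ k I) B₀)
    (tensorMapLeft k (Ideal.Quotient.mkₐ k I) B₁) (tensorMapLeft k (Ideal.Quotient.mkₐ k I) B₀₁)
    (tensorMapLeft_comp_algebraMap k _ B₀ B₀₁) (tensorMapLeft_comp_algebraMap k _ B₁ B₀₁)
    (tensorMapLeft_mk_surjective k I B₀) (tensorMapLeft_mk_nil k I B₀ hI)
    (tensorMapLeft_mk_surjective k I B₁) (tensorMapLeft_mk_nil k I B₁ hI)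
    (tensorMapLeft_mk_surjective k I B₀₁) (tensorMapLeft_mk_nil k I B₀₁ hI) G₀

/-- **ALG-DEF**: `Stmt.AlgDef` holds (for every cospan `B₀ → B₀₁ ← B₁` of `k`-algebras). -/
theorem algDef : Stmt.AlgDef k B₀ B₁ B₀₁ :=
  fun _ _ _ _ _ _ _ I hI G₀ => exists_curveGD_lift k B₀ B₁ B₀₁ I hI G₀

end Statement

end Fermat.Agent.S25.H971
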