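import Fermat.Agent.S25.H971.ACCovAlg
import Fermat.Agent.S25.H971.AlgDef
import Fermat.Agent.S25.H11.ACDefs
import Fermat.Agent.S25.H791.GenericPoints
import Fermat.Agent.S25.H207.ChartCor
import Fermat.Agent.S25.H687.Points
import Fermat.Agent.S25.H250.AdapterProj

/-!
# S25 / ALGCHARTS / COVER, sub-leaf COV1: points over a field

For a curve chart, a field `K ⊇ k` and a gluing datum `G` over `K` (of degree `0`) there are a
twist `n` and distinct `k`-points `q₁, …, q_m` of `Spec B₀`, `m + g = n d`, such that `G`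
satisfies the chart condition `P2 x y n q G`: `H¹(G(nE₀ - Σq)) = 0`, and `H⁰(G(nE₀ - Σq))` is a
line spanned by a section which does not vanish on `E₀ = {y = 0}`.

The inputs from block DEGREE (`DEG1 = finrank_sec`, `DEG3 = exists_P0`) are hypotheses, in the
shape of the squad skeleton.
-/

set_option autoImplicit false
set_option linter.style.haveILetI false
set_option linter.unusedSectionVars false

universe u

open scoped TensorProduct

namespace Fermat.Agent.S25.H971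

open Fermat.Agent.S25 Fermat.Agent.S25.H11

variable {k : Type u} [Field k] [IsAlgClosed k]
  {B₀ B₁ B₀₁ : Type u} [CommRing B₀] [CommRing B₁] [CommRing B₀₁]
  [Algebra k B₀] [Algebra k B₁] [Algebra k B₀₁] [Algebra B₀ B₀₁] [Algebra B₁ B₀₁]
  [IsScalarTower k B₀ B₀₁] [IsScalarTower k B₁ B₀₁]
  {x : B₀} {y : B₁} {e : B₁ →ₐ[k] k}

section AnyBase

variable {A : Type u} [CommRing A] [Algebra k A]

omit [IsAlgClosed k] in
/-- `(1 ⊗ x) (1 ⊗ y) = 1` in `A ⊗ B₀₁`. -/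
theorem xElt_mul_yElt (hC : IsCurveChart k B₀ B₁ B₀₁ x y e) :
    xElt k B₀₁ A x * algebraMap (A ⊗[k] B₁) (A ⊗[k] B₀₁) (yElt k A y) = 1 := by
  rw [xElt, yElt, algebraMap_tensor_tmul, Algebra.TensorProduct.tmul_mul_tmul, one_mul,
    hC.mul_eq_one]
  rfl

omit [IsAlgClosed k] in
/-- `r₁ (y • b) = (1 ⊗ y) • r₁ b`. -/
theorem r₁_yElt_smul (G : CurveGD k B₀ B₁ B₀₁ A) (b : G.N₁) :
    G.r₁ (yElt k A y • b) = algebraMap (A ⊗[k] B₁) (A ⊗[k] B₀₁) (yElt k A y) • G.r₁ b := by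
  rw [map_smul, algebraMap_smul]

omit [IsAlgClosed k] in
/-- If `H¹(G(nE₀)) = 0` then `H⁰(G((n+1)E₀)) → N₁ / y N₁` is onto. -/
theorem exists_sec_succ_sub_mem (hC : IsCurveChart k B₀ B₁ B₀₁ x y e)
    (G : CurveGD k B₀ B₁ B₀₁ A) (n : ℕ) (h0 : P0 x n G) (c : G.N₁) :
    ∃ s ∈ sec x (n + 1) G,
      s.2 - c ∈ (Ideal.span {yElt k A y} • ⊤ : Submodule (A ⊗[k] B₁) G.N₁) := by
  obtain ⟨p, hp⟩ := h0 (xElt k B₀₁ A x ^ (n + 1) • G.r₁ c)
  rw [tcech_apply] at hp
  refine ⟨(p.1, yElt k A y • p.2 + c), ?_, ?_⟩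
  · rw [mem_sec]
    show G.r₀ p.1 = xElt k B₀₁ A x ^ (n + 1) • G.r₁ (yElt k A y • p.2 + c)
    rw [map_add, r₁_yElt_smul, smul_add, smul_smul, pow_succ, mul_assoc, xElt_mul_yElt hC,
      mul_one, ← pow_succ, ← hp]
    abel
  · show yElt k A y • p.2 + c - c ∈ _
    rw [add_sub_cancel_right]
    exact Submodule.smul_mem_smul (Ideal.mem_span_singleton_self _) Submodule.mem_top

end AnyBase

section Field

variable {K : Type u} [Field K] [Algebra k K]

omit [IsAlgClosed k] in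
theorem ptHom_surjective (q : B₀ →ₐ[k] k) : Function.Surjective (ptHom q K) :=
  fun c => ⟨algebraMap K (K ⊗[k] B₀) c, by simp⟩

omit [IsAlgClosed k] in
theorem ker_ptHom_isMaximal (q : B₀ →ₐ[k] k) : (RingHom.ker (ptHom q K)).IsMaximal :=
  RingHom.ker_isMaximal_of_surjective (ptHom q K) (ptHom_surjective q)

omit [IsAlgClosed k] in
/-- A `k`-point is determined by the maximal ideal of its base change to `K`. -/
theorem ker_ptHom_injective :
    Function.Injective (fun q : B₀ →ₐ[k] k => RingHom.ker (ptHom q K)) := by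
  intro q q' h
  refine AlgHom.ext fun b => ?_
  have h1 : ((1 : K) ⊗ₜ[k] b - (algebraMap k K (q b)) ⊗ₜ[k] (1 : B₀) : K ⊗[k] B₀) ∈
      RingHom.ker (ptHom q K) := by
    rw [RingHom.mem_ker, map_sub, ptHom_tmul, ptHom_tmul]
    simp
  have h2 : ((1 : K) ⊗ₜ[k] b - (algebraMap k K (q b)) ⊗ₜ[k] (1 : B₀) : K ⊗[k] B₀) ∈
      RingHom.ker (ptHom q' K) := by
    have h' : RingHom.ker (ptHom q K) = RingHom.ker (ptHom q' K) := h
    rw [← h']; exact h1
  rw [RingHom.mem_ker, map_sub, ptHom_tmul, ptHom_tmul] at h2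
  simp only [one_mul, map_one, mul_one, sub_eq_zero] at h2
  exact ((algebraMap k K).injective h2).symm

omit [IsAlgClosed k] in
/-- `1 ⊗ y` is not a unit of `K ⊗ B₁`. -/
theorem span_yElt_ne_top (hC : IsCurveChart k B₀ B₁ B₀₁ x y e) :
    (Ideal.span {yElt k K y} : Ideal (K ⊗[k] B₁)) ≠ ⊤ := by
  intro h
  rw [Ideal.span_singleton_eq_top] at h
  have h1 : IsUnit (epsHom e K (yElt k K y)) := h.map (epsHom e K)
  have h2 : epsHom e K (yElt k K y) = 0 := by
    simp [yElt, epsHom, Algebra.ofId_apply, hC.e_y]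
  rw [h2] at h1
  exact not_isUnit_zero h1

/-- `1 ⊗ y ≠ 0` in `K ⊗ B₁`. -/
theorem yElt_ne_zero (hC : IsCurveChart k B₀ B₁ B₀₁ x y e) : yElt k K y ≠ 0 := by
  intro h
  haveI := H207.isDomain_tensor_chart₀₁ hC K
  have h1 := xElt_mul_yElt (A := K) hC
  rw [h, map_zero, mul_zero] at h1
  exact zero_ne_one h1

/-- `1 ⊗ x` acts injectively on `N₀₁`. -/
theorem xElt_pow_smul_injective (hC : IsCurveChart k B₀ B₁ B₀₁ x y e)
    (G : CurveGD k B₀ B₁ B₀₁ K) (n : ℕ) {z : G.N₀₁} (hz : xElt k B₀₁ K x ^ n • z = 0) :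
    z = 0 := by
  have h1 := xElt_mul_yElt (A := K) hC
  have h2 : (algebraMap (K ⊗[k] B₁) (K ⊗[k] B₀₁) (yElt k K y) ^ n * xElt k B₀₁ K x ^ n) • z
      = z := by
    rw [← mul_pow, mul_comm, h1, one_pow, one_smul]
  rw [← h2, mul_smul, hz, smul_zero]

/-- A section of `G(nE₀)` whose first component vanishes is zero. -/
theorem eq_zero_of_fst_eq_zero (hC : IsCurveChart k B₀ B₁ B₀₁ x y e)
    (G : CurveGD k B₀ B₁ B₀₁ K) {n : ℕ} {v : G.N₀ × G.N₁} (hv : v ∈ sec x n G)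
    (h : v.1 = 0) : v = 0 := by
  rw [mem_sec, h, map_zero] at hv
  have h1 : G.r₁ v.2 = 0 := xElt_pow_smul_injective hC G n hv.symm
  have h2 : v.2 = 0 := H250.r1_injective hC G (by rw [map_zero]; exact h1)
  exact Prod.ext h h2

/-- The fibre of `N₀` at the `k`-point `q`. -/
abbrev fibre₀ (G : CurveGD k B₀ B₁ B₀₁ K) (q : B₀ →ₐ[k] k) : Type u :=
  G.N₀ ⧸ (RingHom.ker (ptHom q K) • ⊤ : Submodule (K ⊗[k] B₀) G.N₀)

/-- Evaluation of sections of `G(nE₀)` at the `k`-point `q`. -/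
def evSec (x : B₀) (n : ℕ) (G : CurveGD k B₀ B₁ B₀₁ K) (q : B₀ →ₐ[k] k) :
    sec x n G →ₗ[K] fibre₀ G q :=
  (((RingHom.ker (ptHom q K) • ⊤ : Submodule (K ⊗[k] B₀) G.N₀).mkQ.restrictScalars K).comp
    (LinearMap.fst K G.N₀ G.N₁)).comp (sec x n G).subtype

omit [IsAlgClosed k] in
theorem evSec_eq_zero_iff {n : ℕ} {G : CurveGD k B₀ B₁ B₀₁ K} {q : B₀ →ₐ[k] k}
    (v : sec x n G) :
    evSec x n G q v = 0 ↔
      v.1.1 ∈ (RingHom.ker (ptHom q K) • ⊤ : Submodule (K ⊗[k] B₀) G.N₀) := by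
  show (RingHom.ker (ptHom q K) • ⊤ : Submodule (K ⊗[k] B₀) G.N₀).mkQ v.1.1 = 0 ↔ _
  rw [Submodule.mkQ_apply, Submodule.Quotient.mk_eq_zero]

omit [IsAlgClosed k] in
theorem finrank_fibre₀ (G : CurveGD k B₀ B₁ B₀₁ K) (q : B₀ →ₐ[k] k) :
    Module.finrank K (fibre₀ G q) = 1 := by
  haveI := G.invertible₀
  exact finrank_quotient_ker_smul_top (N := G.N₀) (ptHom q K)

/-- The sections of `G(nE₀)` vanishing at a maximal ideal `P` of `K ⊗ B₁`. -/
def vanAt (x : B₀) (n : ℕ) (G : CurveGD k B₀ B₁ B₀₁ K) (P : Ideal (K ⊗[k] B₁)) :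
    Submodule K (sec x n G) :=
  (((P • ⊤ : Submodule (K ⊗[k] B₁) G.N₁).restrictScalars K).comap
    (LinearMap.snd K G.N₀ G.N₁)).comap (sec x n G).subtype

omit [IsAlgClosed k] in
theorem mem_vanAt {n : ℕ} {G : CurveGD k B₀ B₁ B₀₁ K} {P : Ideal (K ⊗[k] B₁)}
    (v : sec x n G) :
    v ∈ vanAt x n G P ↔ v.1.2 ∈ (P • ⊤ : Submodule (K ⊗[k] B₁) G.N₁) := Iff.rfl

/-- A nonzero section of `G(nE₀)` vanishes at finitely many `k`-points. -/
theorem finite_setOf_evSec_eq_zero (hC : IsCurveChart k B₀ B₁ B₀₁ x y e)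
    (G : CurveGD k B₀ B₁ B₀₁ K) (n : ℕ) (v : sec x n G) (hv : v ≠ 0) :
    {q : B₀ →ₐ[k] k | evSec x n G q v = 0}.Finite := by
  haveI := G.invertible₀
  haveI := H207.isDedekindDomain_tensor_chart₀ hC K
  have ha : v.1.1 ≠ 0 := fun h => hv (Subtype.ext (eq_zero_of_fst_eq_zero hC G v.2 h))
  have hfin := H687.finite_zeros_of_section (B := K ⊗[k] B₀) (N := G.N₀) ha
  have := hfin.preimage (f := fun q : B₀ →ₐ[k] k => RingHom.ker (ptHom q K))
    (ker_ptHom_injective.injOn)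
  refine this.subset ?_
  intro q hq
  rw [Set.mem_ofPred_eq, evSec_eq_zero_iff] at hq
  exact ⟨ker_ptHom_isMaximal q, hq⟩

/-- The sections vanishing at a point of `E₀` form a proper subspace, if `H¹(G((n-1)E₀)) = 0`. -/
theorem vanAt_ne_top (hC : IsCurveChart k B₀ B₁ B₀₁ x y e)
    (G : CurveGD k B₀ B₁ B₀₁ K) (n : ℕ) (h0 : P0 x n G) (P : Ideal (K ⊗[k] B₁))
    (hP : P.IsMaximal) (hy : yElt k K y ∈ P) : vanAt x (n + 1) G P ≠ ⊤ := by
  haveI := G.invertible₁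
  haveI : Nontrivial (K ⊗[k] B₁) := ⟨⟨0, 1, fun h => hP.ne_top (by
    rw [Ideal.eq_top_iff_one, ← h]; exact P.zero_mem)⟩⟩
  intro h
  apply smul_top_ne_top_of_invertible (N := G.N₁) hP.ne_top
  rw [eq_top_iff]
  intro c _
  obtain ⟨s, hs, hsc⟩ := exists_sec_succ_sub_mem hC G n h0 c
  have h1 : (⟨s, hs⟩ : sec x (n + 1) G) ∈ vanAt x (n + 1) G P := by rw [h]; exact Submodule.mem_top
  rw [mem_vanAt] at h1
  have h2 : s.2 - c ∈ (P • ⊤ : Submodule (K ⊗[k] B₁) G.N₁) :=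
    Submodule.smul_mono_left ((Ideal.span_singleton_le_iff_mem P).mpr hy) hsc
  have : c = s.2 - (s.2 - c) := by abel
  rw [this]
  exact Submodule.sub_mem _ h1 h2

omit [IsAlgClosed k] in
/-- Distinct `k`-points have coprime ideals. -/
theorem pairwise_isCoprime_ker_ptHom {m : ℕ} (q : Fin m → (B₀ →ₐ[k] k))
    (hq : Function.Injective q) :
    ((Finset.univ : Finset (Fin m)) : Set (Fin m)).Pairwise
      (fun i j => IsCoprime (RingHom.ker (ptHom (q i) K)) (RingHom.ker (ptHom (q j) K))) := by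
  intro i _ j _ hij
  haveI := ker_ptHom_isMaximal (K := K) (q i)
  haveI := ker_ptHom_isMaximal (K := K) (q j)
  exact Ideal.isCoprime_of_isMaximal fun h => hij (hq (ker_ptHom_injective h))

omit [IsAlgClosed k] in
/-- Vanishing on `Σ q i` is vanishing at every `q i` (distinct points). -/
theorem mem_vanq_iff {m : ℕ} (q : Fin m → (B₀ →ₐ[k] k)) (hq : Function.Injective q)
    (G : CurveGD k B₀ B₁ B₀₁ K) (a : G.N₀) :
    a ∈ vanq q G ↔
      ∀ i, a ∈ (RingHom.ker (ptHom (q i) K) • ⊤ : Submodule (K ⊗[k] B₀) G.N₀) := by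
  constructor
  · intro h i
    exact mem_smul_top_of_mem_prod_smul_top Finset.univ _ a h (Finset.mem_univ i)
  · intro h
    exact mem_prod_smul_top_of_forall_mem Finset.univ _ (pairwise_isCoprime_ker_ptHom q hq) a
      (fun i _ => h i)

/-- **COV1.** Over a field, a gluing datum satisfies the chart condition `P2` for a suitable
twist `n` and suitable distinct `k`-points `q`, with `m + g = n d`.  The DEGREE inputs `DEG3`
(`hP0`) and `DEG1` (`hdim`) are hypotheses. -/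
theorem cov1 (hC : IsCurveChart k B₀ B₁ B₀₁ x y e) (G : CurveGD k B₀ B₁ B₀₁ K)
    (hP0 : ∃ n₀ : ℕ, ∀ n, n₀ ≤ n → P0 x n G)
    (hdim : ∀ n, P0 x n G → Module.Finite K (sec x n G) ∧
      Module.finrank K (sec x n G) +
          Module.finrank k (GlueDatum.unit k (k ⊗[k] B₀) (k ⊗[k] B₁) (k ⊗[k] B₀₁)).H1 =
        n * Module.finrank k (B₁ ⧸ Ideal.span {y}) + 1) :
    ∃ (n m : ℕ) (q : Fin m → (B₀ →ₐ[k] k)), Function.Injective q ∧
      m + Module.finrank k (GlueDatum.unit k (k ⊗[k] B₀) (k ⊗[k] B₁) (k ⊗[k] B₀₁)).H1 =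
        n * Module.finrank k (B₁ ⧸ Ideal.span {y}) ∧ P2 x y n q G := by
  classical
  haveI := G.invertible₀
  haveI := G.invertible₁
  obtain ⟨n₀, hn₀⟩ := hP0
  have h0 : P0 x n₀ G := hn₀ n₀ le_rfl
  have h1 : P0 x (n₀ + 1) G := hn₀ (n₀ + 1) (Nat.le_succ n₀)
  obtain ⟨hfin, hrk⟩ := hdim (n₀ + 1) h1
  haveI : Module.Finite K (sec x (n₀ + 1) G) := hfin
  haveI hdom₁ := H207.isDedekindDomain_tensor_chart₁ hC K
  haveI : Nontrivial (K ⊗[k] B₁) := inferInstance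
  -- the space of sections is nonzero
  have hpos : 0 < Module.finrank K (sec x (n₀ + 1) G) := by
    rw [Module.finrank_pos_iff_exists_ne_zero]
    by_contra hcon
    push Not at hcon
    apply smul_top_ne_top_of_invertible (N := G.N₁) (span_yElt_ne_top (K := K) hC)
    rw [eq_top_iff]
    intro c _
    obtain ⟨s, hs, hsc⟩ := exists_sec_succ_sub_mem hC G n₀ h0 c
    have hs0 : s = 0 := congrArg Subtype.val (hcon ⟨s, hs⟩)
    rw [hs0] at hsc
    have : c = -((0 : G.N₀ × G.N₁).2 - c) := by simp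
    rw [this]
    exact Submodule.neg_mem _ hsc
  obtain ⟨m, hm⟩ : ∃ m, Module.finrank K (sec x (n₀ + 1) G) = m + 1 :=
    ⟨Module.finrank K (sec x (n₀ + 1) G) - 1, by omega⟩
  -- infinitely many points
  haveI := hC.isDomain₀
  haveI := H207.finiteType_chart₀ hC
  haveI : Infinite (B₀ →ₐ[k] k) := H687.infinite_algHom k (H207.not_isField_chart₀ hC)
  -- the finitely many points of `E₀`
  have hfinE : {P : Ideal (K ⊗[k] B₁) | P.IsMaximal ∧ yElt k K y ∈ P}.Finite :=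
    H687.finite_setOf_isMaximal_mem (yElt_ne_zero (K := K) hC)
  haveI : Finite {P : Ideal (K ⊗[k] B₁) | P.IsMaximal ∧ yElt k K y ∈ P} := hfinE.to_subtype
  obtain ⟨q, hqinj, -, s, hs0, hs, hsH, hsurj⟩ :=
    H791.exists_points_line_of_finrank_eq_one (K := K) (V := sec x (n₀ + 1) G)
      (Q := B₀ →ₐ[k] k) (L := fun q => fibre₀ G q) (fun q => evSec x (n₀ + 1) G q)
      (fun P : {P : Ideal (K ⊗[k] B₁) | P.IsMaximal ∧ yElt k K y ∈ P} =>
        vanAt x (n₀ + 1) G P.1)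
      (fun q => finrank_fibre₀ G q)
      (fun v hv => finite_setOf_evSec_eq_zero hC G (n₀ + 1) v hv)
      (fun P => vanAt_ne_top hC G n₀ h0 P.1 P.2.1 P.2.2) m hm ∅ Set.finite_empty
  refine ⟨n₀ + 1, m, q, hqinj, by omega, ⟨h1, fun a => ?_⟩, s.1, ?_, ?_, ?_⟩
  · -- surjectivity onto `N₀ / I_q N₀`
    obtain ⟨v, hv⟩ := hsurj (fun i =>
      (RingHom.ker (ptHom (q i) K) • ⊤ : Submodule (K ⊗[k] B₀) G.N₀).mkQ a)
    refine ⟨v.1, v.2, ?_⟩
    rw [mem_vanq_iff q hqinj]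
    intro i
    have hvi := congrFun hv i
    have : (RingHom.ker (ptHom (q i) K) • ⊤ : Submodule (K ⊗[k] B₀) G.N₀).mkQ v.1.1 =
        (RingHom.ker (ptHom (q i) K) • ⊤ : Submodule (K ⊗[k] B₀) G.N₀).mkQ a := hvi
    rw [← sub_eq_zero, ← map_sub, Submodule.mkQ_apply, Submodule.Quotient.mk_eq_zero] at this
    rw [← Submodule.neg_mem_iff]
    simpa using this
  · -- `s ∈ secq`
    refine ⟨s.2, ?_⟩
    show s.1.1 ∈ vanq q G
    rw [mem_vanq_iff q hqinj]
    intro i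
    rw [← evSec_eq_zero_iff]
    exact (hs s).mpr (Submodule.mem_span_singleton_self s) i
  · -- `secq = K s`
    intro t ht
    have ht' : ∀ i, evSec x (n₀ + 1) G (q i) ⟨t, ht.1⟩ = 0 := by
      intro i
      rw [evSec_eq_zero_iff]
      exact (mem_vanq_iff q hqinj G t.1).mp ht.2 i
    obtain ⟨a, ha⟩ := Submodule.mem_span_singleton.mp ((hs ⟨t, ht.1⟩).mp ht')
    exact ⟨a, (congrArg Subtype.val ha).symm⟩
  · -- `s` does not vanish on `E₀`
    intro c
    have htop := span_sup_smul_top_eq_top (N := G.N₁) (I := Ideal.span {yElt k K y})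
      (s := s.1.2) (fun P hP hIP => by
        have hy : yElt k K y ∈ P := hIP (Ideal.mem_span_singleton_self _)
        exact fun hmem => hsH ⟨P, hP, hy⟩ ((mem_vanAt s).mpr hmem))
    have hc : c ∈ Submodule.span (K ⊗[k] B₁) {s.1.2} ⊔
        (Ideal.span {yElt k K y} • ⊤ : Submodule (K ⊗[k] B₁) G.N₁) := by
      rw [htop]; exact Submodule.mem_top
    obtain ⟨w, hw, z, hz, rfl⟩ := Submodule.mem_sup.mp hc
    obtain ⟨r, rfl⟩ := Submodule.mem_span_singleton.mp hw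
    exact ⟨r, by rw [add_sub_cancel_left]; exact hz⟩

end Field

end Fermat.Agent.S25.H971
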