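import Fermat.Agent.S25.H971.AlgDef
import Fermat.Agent.S25.DefsDict

/-!
# S25 / GDC: base changes of gluing data exist (`Stmt.AlgBCExists`)

For every morphism of cospans `(ρ₀, ρ₁, ρ₀₁)` and every gluing datum `G` over the source cospan
there is a gluing datum over the target cospan which is a base change of `G`
(`exists_glueDatum_baseChange`).
-/

set_option autoImplicit false
set_option linter.style.haveILetI false

open TensorProduct

namespace Fermat.Agent.S25.H971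

universe u

section Square

variable {R S R' S' : Type u} [CommRing R] [CommRing S] [CommRing R'] [CommRing S']
  [Algebra R S] [Algebra R' S']

/-- One leg of the base change of a gluing datum: for a commutative square of rings
`σ ∘ (R → S) = (R' → S') ∘ ρ` and a base change `f : M → N` along `R → S`, there is a base
change `f' : R' ⊗[R] M → S' ⊗[S] N` along `R' → S'` compatible with the canonical maps. -/
theorem exists_baseChange_leg (ρ : R →+* R') (σ : S →+* S')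
    (hσρ : σ.comp (algebraMap R S) = (algebraMap R' S').comp ρ)
    {M N : Type u} [AddCommGroup M] [Module R M] [AddCommGroup N] [Module S N] [Module R N]
    [IsScalarTower R S N] (f : M →ₗ[R] N) (hf : IsBaseChange S f) :
    letI : Algebra R R' := ρ.toAlgebra
    letI : Algebra S S' := σ.toAlgebra
    ∃ f' : R' ⊗[R] M →ₗ[R'] S' ⊗[S] N, IsBaseChange S' f' ∧
        ∀ m : M, f' ((1 : R') ⊗ₜ[R] m) = (1 : S') ⊗ₜ[S] f m := by
  letI aRR' : Algebra R R' := ρ.toAlgebra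
  letI aSS' : Algebra S S' := σ.toAlgebra
  letI aRS' : Algebra R S' := (σ.comp (algebraMap R S)).toAlgebra
  haveI tRSS' : IsScalarTower R S S' := IsScalarTower.of_algebraMap_eq (fun x => rfl)
  haveI tRR'S' : IsScalarTower R R' S' := IsScalarTower.of_algebraMap_eq (fun x =>
    RingHom.congr_fun hσρ x)
  have hg : IsBaseChange S' (TensorProduct.mk S S' N 1) := TensorProduct.isBaseChange S N S'
  have hcomp : IsBaseChange S' (((TensorProduct.mk S S' N 1).restrictScalars R).comp f) :=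
    IsBaseChange.comp hf hg
  have hT : IsBaseChange R' (TensorProduct.mk R R' M 1) := TensorProduct.isBaseChange R M R'
  let f' : R' ⊗[R] M →ₗ[R'] S' ⊗[S] N :=
    hT.lift (((TensorProduct.mk S S' N 1).restrictScalars R).comp f)
  have hf'T : (f'.restrictScalars R).comp (TensorProduct.mk R R' M 1) =
      ((TensorProduct.mk S S' N 1).restrictScalars R).comp f := hT.lift_comp _
  have hf' : IsBaseChange S' f' := IsBaseChange.of_comp hT (by rw [hf'T]; exact hcomp)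
  exact ⟨f', hf', fun m => LinearMap.congr_fun hf'T m⟩

end Square

section Main

variable {A R₀ R₁ R₀₁ : Type u} [CommRing A] [CommRing R₀] [CommRing R₁]
    [CommRing R₀₁] [Algebra A R₀] [Algebra A R₁] [Algebra A R₀₁] [Algebra R₀ R₀₁]
    [Algebra R₁ R₀₁] [IsScalarTower A R₀ R₀₁] [IsScalarTower A R₁ R₀₁]
    {A' R₀' R₁' R₀₁' : Type u} [CommRing A'] [CommRing R₀'] [CommRing R₁']
    [CommRing R₀₁'] [Algebra A' R₀'] [Algebra A' R₁'] [Algebra A' R₀₁'] [Algebra R₀' R₀₁']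
    [Algebra R₁' R₀₁'] [IsScalarTower A' R₀' R₀₁'] [IsScalarTower A' R₁' R₀₁']

/-- The canonical map `M → R' ⊗[R] M` as a semilinear base change. -/
theorem exists_semilinear_mk {R R' : Type u} [CommRing R] [CommRing R'] (ρ : R →+* R')
    (M : Type u) [AddCommGroup M] [Module R M] :
    letI : Algebra R R' := ρ.toAlgebra
    ∃ b : M →ₛₗ[ρ] R' ⊗[R] M, IsSemilinearBaseChange ρ b ∧
      ∀ m, b m = (1 : R') ⊗ₜ[R] m := by
  letI : Algebra R R' := ρ.toAlgebra
  let b : M →ₛₗ[ρ] R' ⊗[R] M :=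
    { toFun := fun m => (1 : R') ⊗ₜ[R] m
      map_add' := fun m n => TensorProduct.tmul_add _ m n
      map_smul' := fun r m => by
        rw [TensorProduct.tmul_smul, TensorProduct.smul_tmul']
        congr 1 }
  exact ⟨b, isSemilinearBaseChange_of_equiv ρ b (LinearEquiv.refl R' _) (fun m => rfl),
    fun m => rfl⟩

/-- **Base changes of gluing data exist**, along any morphism of cospans. -/
theorem exists_glueDatum_baseChange (ρ₀ : R₀ →+* R₀') (ρ₁ : R₁ →+* R₁') (ρ₀₁ : R₀₁ →+* R₀₁')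
    (h₀ : ρ₀₁.comp (algebraMap R₀ R₀₁) = (algebraMap R₀' R₀₁').comp ρ₀)
    (h₁ : ρ₀₁.comp (algebraMap R₁ R₀₁) = (algebraMap R₁' R₀₁').comp ρ₁)
    (G : GlueDatum A R₀ R₁ R₀₁) :
    ∃ G' : GlueDatum A' R₀' R₁' R₀₁', GlueDatum.IsBC ρ₀ ρ₁ ρ₀₁ G G' := by
  haveI := G.invertible₀
  haveI := G.invertible₁
  letI a₀ : Algebra R₀ R₀' := ρ₀.toAlgebra
  letI a₁ : Algebra R₁ R₁' := ρ₁.toAlgebra
  letI a₀₁ : Algebra R₀₁ R₀₁' := ρ₀₁.toAlgebra
  obtain ⟨b₀, hb₀, hb₀'⟩ := exists_semilinear_mk ρ₀ G.N₀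
  obtain ⟨b₁, hb₁, hb₁'⟩ := exists_semilinear_mk ρ₁ G.N₁
  obtain ⟨b₀₁, hb₀₁, hb₀₁'⟩ := exists_semilinear_mk ρ₀₁ G.N₀₁
  obtain ⟨r₀', hr₀', hr₀''⟩ := exists_baseChange_leg ρ₀ ρ₀₁ h₀ G.r₀ G.isBaseChange₀
  obtain ⟨r₁', hr₁', hr₁''⟩ := exists_baseChange_leg ρ₁ ρ₀₁ h₁ G.r₁ G.isBaseChange₁
  refine ⟨glueDatumOfModules A' (R₀' ⊗[R₀] G.N₀) (R₁' ⊗[R₁] G.N₁) (R₀₁' ⊗[R₀₁] G.N₀₁) r₀' r₁'
    hr₀' hr₁' inferInstance inferInstance, ⟨?_⟩⟩
  exact
    { b₀ := b₀
      b₁ := b₁
      b₀₁ := b₀₁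
      comm₀ := fun s => by
        change b₀₁ (G.r₀ s) = r₀' (b₀ s)
        rw [hb₀₁', hb₀', hr₀'']
      comm₁ := fun s => by
        change b₀₁ (G.r₁ s) = r₁' (b₁ s)
        rw [hb₀₁', hb₁', hr₁'']
      isBaseChange₀ := hb₀
      isBaseChange₁ := hb₁
      isBaseChange₀₁ := hb₀₁ }

end Main

section Statement

variable {k : Type u} [Field k] (B₀ B₁ B₀₁ : Type u) [CommRing B₀] [CommRing B₁] [CommRing B₀₁]
  [Algebra k B₀] [Algebra k B₁] [Algebra k B₀₁] [Algebra B₀ B₀₁] [Algebra B₁ B₀₁]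
  [IsScalarTower k B₀ B₀₁] [IsScalarTower k B₁ B₀₁]

/-- Base changes of curve gluing data exist along every `φ : A →ₐ[k] A'`. -/
theorem exists_curveGD_baseChange {A A' : Type u} [CommRing A] [Algebra k A] [CommRing A']
    [Algebra k A'] (φ : A →ₐ[k] A') (G : CurveGD k B₀ B₁ B₀₁ A) :
    ∃ G' : CurveGD k B₀ B₁ B₀₁ A', CurveGD.IsBC φ G G' :=
  exists_glueDatum_baseChange (tensorMapLeft k φ B₀) (tensorMapLeft k φ B₁)
    (tensorMapLeft k φ B₀₁) (tensorMapLeft_comp_algebraMap k φ B₀ B₀₁)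
    (tensorMapLeft_comp_algebraMap k φ B₁ B₀₁) G

end Statement

section Dict

open CategoryTheory AlgebraicGeometry AlgebraicGeometry.RelPicard NeronModelInfra
  GoodReductionJacobian

variable {k : Type u} [Field k] {C : Scheme.{u}} {c : C ⟶ Spec (CommRingCat.of k)}
  {ε : SchemeHomOver (𝟙 (Spec (CommRingCat.of k))) c}

/-- **ALG-BC-EXISTS** in the frozen form. -/
theorem algBCExists (Ch : ChartOf c ε) : Stmt.AlgBCExists Ch :=
  fun _ _ _ _ _ _ φ G => exists_curveGD_baseChange Ch.B₀ Ch.B₁ Ch.B₀₁ φ G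

end Dict

end Fermat.Agent.S25.H971
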