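import Fermat.Agent.S25.DefsAlg
import Fermat.Agent.S25.H971.Lift

/-!
# S25 / block ALGDEF: gluing data lift along nil thickenings of cospans

`R₀ → R₀₁ ← R₁` and `R₀' → R₀₁' ← R₁'` cospans of commutative rings, `ρ₀, ρ₁, ρ₀₁` a morphism of
cospans all of whose components are surjective with nil kernel.  Then every gluing datum over
the primed cospan is a base change of a gluing datum over the unprimed one
(`exists_glueDatum_lift`).
-/

set_option autoImplicit false
set_option linter.style.haveILetI false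

open TensorProduct

namespace Fermat.Agent.S25.H971

universe u

section Construct

variable (A : Type u) {R₀ R₁ R₀₁ : Type u} [CommRing A] [CommRing R₀] [CommRing R₁]
    [CommRing R₀₁] [Algebra A R₀] [Algebra A R₁] [Algebra A R₀₁] [Algebra R₀ R₀₁]
    [Algebra R₁ R₀₁] [IsScalarTower A R₀ R₀₁] [IsScalarTower A R₁ R₀₁]

/-- Build a gluing datum from modules over the three rings of the cospan; the `A`-module
structures are obtained by restriction of scalars. -/
def glueDatumOfModules (N₀ N₁ N₀₁ : Type u) [AddCommGroup N₀] [AddCommGroup N₁]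
    [AddCommGroup N₀₁] [Module R₀ N₀] [Module R₁ N₁] [Module R₀₁ N₀₁]
    [Module R₀ N₀₁] [IsScalarTower R₀ R₀₁ N₀₁] [Module R₁ N₀₁] [IsScalarTower R₁ R₀₁ N₀₁]
    (r₀ : N₀ →ₗ[R₀] N₀₁) (r₁ : N₁ →ₗ[R₁] N₀₁) (h₀ : IsBaseChange R₀₁ r₀)
    (h₁ : IsBaseChange R₀₁ r₁) (i₀ : Module.Invertible R₀ N₀) (i₁ : Module.Invertible R₁ N₁) :
    GlueDatum A R₀ R₁ R₀₁ :=
  letI mA₀ : Module A N₀ := Module.compHom N₀ (algebraMap A R₀)
  letI mA₁ : Module A N₁ := Module.compHom N₁ (algebraMap A R₁)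
  letI mA₀₁ : Module A N₀₁ := Module.compHom N₀₁ (algebraMap A R₀₁)
  haveI t₀ : IsScalarTower A R₀ N₀ := ⟨fun a r n => by
    change (a • r) • n = (algebraMap A R₀ a) • (r • n)
    rw [Algebra.smul_def, mul_smul]⟩
  haveI t₁ : IsScalarTower A R₁ N₁ := ⟨fun a r n => by
    change (a • r) • n = (algebraMap A R₁ a) • (r • n)
    rw [Algebra.smul_def, mul_smul]⟩
  haveI t₀₁ : IsScalarTower A R₀₁ N₀₁ := ⟨fun a r n => by
    change (a • r) • n = (algebraMap A R₀₁ a) • (r • n)
    rw [Algebra.smul_def, mul_smul]⟩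
  { N₀ := N₀
    N₁ := N₁
    N₀₁ := N₀₁
    r₀ := r₀
    r₁ := r₁
    isBaseChange₀ := h₀
    isBaseChange₁ := h₁
    invertible₀ := i₀
    invertible₁ := i₁ }

end Construct

section Semilinear

variable {R R' : Type u} [CommRing R] [CommRing R']

/-- A `ρ`-semilinear map induced by an isomorphism `R' ⊗[R] M ≃ N'` (for the algebra structure
`ρ.toAlgebra`) is a semilinear base change. -/
theorem isSemilinearBaseChange_of_equiv (ρ : R →+* R') {M N' : Type u} [AddCommGroup M]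
    [Module R M] [AddCommGroup N'] [Module R' N'] (b : M →ₛₗ[ρ] N')
    (e : letI : Algebra R R' := ρ.toAlgebra; R' ⊗[R] M ≃ₗ[R'] N')
    (he : letI : Algebra R R' := ρ.toAlgebra; ∀ m : M, e ((1 : R') ⊗ₜ[R] m) = b m) :
    IsSemilinearBaseChange ρ b := by
  letI : Algebra R R' := ρ.toAlgebra
  letI : Module R N' := Module.compHom N' ρ
  haveI : IsScalarTower R R' N' := ⟨fun r r' n => by
    change (ρ r * r') • n = ρ r • (r' • n); rw [mul_smul]⟩
  exact IsBaseChange.of_equiv e he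

/-- The isomorphism `R' ⊗[R] M ≃ N'` attached to a semilinear base change. -/
theorem exists_equiv_of_isSemilinearBaseChange (ρ : R →+* R') {M N' : Type u} [AddCommGroup M]
    [Module R M] [AddCommGroup N'] [Module R' N'] (b : M →ₛₗ[ρ] N')
    (hb : IsSemilinearBaseChange ρ b) :
    letI : Algebra R R' := ρ.toAlgebra
    ∃ e : R' ⊗[R] M ≃ₗ[R'] N', ∀ (s : R') (m : M), e (s ⊗ₜ[R] m) = s • b m := by
  letI : Algebra R R' := ρ.toAlgebra
  letI : Module R N' := Module.compHom N' ρ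
  haveI : IsScalarTower R R' N' := ⟨fun r r' n => by
    change (ρ r * r') • n = ρ r • (r' • n); rw [mul_smul]⟩
  have hb' : IsBaseChange R' (show M →ₗ[R] N' from
    { toFun := fun n => b n
      map_add' := fun m n => b.map_add m n
      map_smul' := fun r n => LinearMap.map_smulₛₗ b r n }) := hb
  exact ⟨hb'.equiv, fun s m => hb'.equiv_tmul s m⟩

/-- Two finite projective modules with the same (semilinear) base change along a surjection
with nil kernel are isomorphic, compatibly with the base change maps. -/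
theorem exists_linearEquiv_of_isSemilinearBaseChange (σ : R →+* R')
    (hsurj : Function.Surjective σ) (hnil : ∀ x ∈ RingHom.ker σ, IsNilpotent x)
    {P P₁ N' : Type u} [AddCommGroup P] [Module R P] [AddCommGroup P₁] [Module R P₁]
    [Module.Finite R P] [Module.Projective R P] [Module.Finite R P₁] [Module.Projective R P₁]
    [AddCommGroup N'] [Module R' N'] (c : P →ₛₗ[σ] N') (c₁ : P₁ →ₛₗ[σ] N')
    (hc : IsSemilinearBaseChange σ c) (hc₁ : IsSemilinearBaseChange σ c₁) :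
    ∃ ψ : P₁ ≃ₗ[R] P, ∀ x, c (ψ x) = c₁ x := by
  letI : Algebra R R' := σ.toAlgebra
  obtain ⟨e, he⟩ := exists_equiv_of_isSemilinearBaseChange σ c hc
  obtain ⟨e₁, he₁⟩ := exists_equiv_of_isSemilinearBaseChange σ c₁ hc₁
  obtain ⟨ψ, hψ⟩ := exists_linearEquiv_lift (R := R) (S := R') hsurj hnil (e₁ ≪≫ₗ e.symm)
  refine ⟨ψ, fun x => ?_⟩
  have h1 := hψ x
  rw [LinearEquiv.trans_apply, LinearEquiv.symm_apply_eq, he₁, he, one_smul, one_smul] at h1
  exact h1.symm

/-- One leg of a morphism of cospans: a semilinear base change `b : M → N'` over `ρ : R → R'`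
and a base change `r' : N' → N₀₁'` along `R' → S'` induce a semilinear base change
`S ⊗[R] M → N₀₁'` over `σ : S → S'`. -/
theorem exists_semilinear_baseChange_tensor {S S' : Type u} [CommRing S] [CommRing S']
    [Algebra R S] [Algebra R' S'] (ρ : R →+* R') (σ : S →+* S')
    (hσρ : σ.comp (algebraMap R S) = (algebraMap R' S').comp ρ)
    {M N' N₀₁' : Type u} [AddCommGroup M] [Module R M] [AddCommGroup N'] [Module R' N']
    [AddCommGroup N₀₁'] [Module S' N₀₁'] [Module R' N₀₁'] [IsScalarTower R' S' N₀₁']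
    (b : M →ₛₗ[ρ] N') (hb : IsSemilinearBaseChange ρ b) (r' : N' →ₗ[R'] N₀₁')
    (hr' : IsBaseChange S' r') :
    ∃ c : S ⊗[R] M →ₛₗ[σ] N₀₁', IsSemilinearBaseChange σ c ∧
      ∀ m : M, c ((1 : S) ⊗ₜ[R] m) = r' (b m) := by
  letI aRR' : Algebra R R' := ρ.toAlgebra
  letI aSS' : Algebra S S' := σ.toAlgebra
  letI aRS' : Algebra R S' := (σ.comp (algebraMap R S)).toAlgebra
  haveI tRSS' : IsScalarTower R S S' := IsScalarTower.of_algebraMap_eq (fun x => rfl)
  haveI tRR'S' : IsScalarTower R R' S' := IsScalarTower.of_algebraMap_eq (fun x =>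
    RingHom.congr_fun hσρ x)
  letI mRN' : Module R N' := Module.compHom N' ρ
  haveI tN' : IsScalarTower R R' N' := ⟨fun r r' n => by
    change (ρ r * r') • n = ρ r • (r' • n); rw [mul_smul]⟩
  letI mSN : Module S N₀₁' := Module.compHom N₀₁' σ
  haveI tSN : IsScalarTower S S' N₀₁' := ⟨fun r r' n => by
    change (σ r * r') • n = σ r • (r' • n); rw [mul_smul]⟩
  letI mRN : Module R N₀₁' := Module.compHom N₀₁' (σ.comp (algebraMap R S))
  haveI tRSN : IsScalarTower R S N₀₁' := ⟨fun r s n => by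
    change σ (r • s) • n = σ (algebraMap R S r) • (σ s • n)
    rw [Algebra.smul_def, map_mul, mul_smul]⟩
  haveI tRS'N : IsScalarTower R S' N₀₁' := ⟨fun r s n => by
    change (σ (algebraMap R S r) * s) • n = σ (algebraMap R S r) • (s • n)
    rw [mul_smul]⟩
  haveI tRR'N : IsScalarTower R R' N₀₁' := ⟨fun r s n => by
    change (ρ r * s) • n = σ (algebraMap R S r) • (s • n)
    have h : σ (algebraMap R S r) = algebraMap R' S' (ρ r) := RingHom.congr_fun hσρ r
    rw [h, mul_smul, algebraMap_smul]⟩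
  let bl : M →ₗ[R] N' :=
    { toFun := fun n => b n
      map_add' := fun m n => b.map_add m n
      map_smul' := fun r n => LinearMap.map_smulₛₗ b r n }
  have hbl : IsBaseChange R' bl := hb
  have hcomp : IsBaseChange S' ((r'.restrictScalars R).comp bl) := IsBaseChange.comp hbl hr'
  have hT : IsBaseChange S (TensorProduct.mk R S M 1) := TensorProduct.isBaseChange R M S
  let c : S ⊗[R] M →ₗ[S] N₀₁' := hT.lift ((r'.restrictScalars R).comp bl)
  have hcT : (c.restrictScalars R).comp (TensorProduct.mk R S M 1) =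
      (r'.restrictScalars R).comp bl := hT.lift_comp _
  have hc : IsBaseChange S' c := IsBaseChange.of_comp hT (by rw [hcT]; exact hcomp)
  refine ⟨{ toFun := fun x => c x
            map_add' := fun x y => c.map_add x y
            map_smul' := fun s x => c.map_smul s x }, ?_, fun m => ?_⟩
  · exact hc
  · exact LinearMap.congr_fun hcT m

end Semilinear

section Main

variable {A R₀ R₁ R₀₁ : Type u} [CommRing A] [CommRing R₀] [CommRing R₁]
    [CommRing R₀₁] [Algebra A R₀] [Algebra A R₁] [Algebra A R₀₁] [Algebra R₀ R₀₁]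
    [Algebra R₁ R₀₁] [IsScalarTower A R₀ R₀₁] [IsScalarTower A R₁ R₀₁]
    {A' R₀' R₁' R₀₁' : Type u} [CommRing A'] [CommRing R₀'] [CommRing R₁']
    [CommRing R₀₁'] [Algebra A' R₀'] [Algebra A' R₁'] [Algebra A' R₀₁'] [Algebra R₀' R₀₁']
    [Algebra R₁' R₀₁'] [IsScalarTower A' R₀' R₀₁'] [IsScalarTower A' R₁' R₀₁']

/-- Lift of an invertible module along a surjection with nil kernel, as a semilinear base
change. -/
theorem exists_invertible_semilinear_lift {R R' : Type u} [CommRing R] [CommRing R']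
    (ρ : R →+* R') (hs : Function.Surjective ρ) (hn : ∀ x ∈ RingHom.ker ρ, IsNilpotent x)
    (N' : Type u) [AddCommGroup N'] [Module R' N'] [Module.Invertible R' N'] :
    ∃ (M : Type u) (_ : AddCommGroup M) (_ : Module R M) (_ : Module.Invertible R M)
      (b : M →ₛₗ[ρ] N'), IsSemilinearBaseChange ρ b := by
  letI : Algebra R R' := ρ.toAlgebra
  obtain ⟨M, _, _, hM, ⟨φ⟩⟩ := exists_invertible_lift (R := R) (S := R') hs hn N'
  let b : M →ₛₗ[ρ] N' :=
    { toFun := fun m => φ ((1 : R') ⊗ₜ[R] m)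
      map_add' := fun m n => by rw [TensorProduct.tmul_add, map_add]
      map_smul' := fun r m => by
        rw [TensorProduct.tmul_smul, TensorProduct.smul_tmul', ← map_smul]
        congr 2 }
  exact ⟨M, inferInstance, inferInstance, hM, b,
    isSemilinearBaseChange_of_equiv ρ b φ (fun m => rfl)⟩

/-- **Gluing data lift along nil thickenings.**  For a morphism of cospans `(ρ₀, ρ₁, ρ₀₁)` all of
whose components are surjective with nil kernel, every gluing datum over the target cospan is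
a base change of a gluing datum over the source cospan. -/
theorem exists_glueDatum_lift (ρ₀ : R₀ →+* R₀') (ρ₁ : R₁ →+* R₁') (ρ₀₁ : R₀₁ →+* R₀₁')
    (h₀ : ρ₀₁.comp (algebraMap R₀ R₀₁) = (algebraMap R₀' R₀₁').comp ρ₀)
    (h₁ : ρ₀₁.comp (algebraMap R₁ R₀₁) = (algebraMap R₁' R₀₁').comp ρ₁)
    (hs₀ : Function.Surjective ρ₀) (hn₀ : ∀ x ∈ RingHom.ker ρ₀, IsNilpotent x)
    (hs₁ : Function.Surjective ρ₁) (hn₁ : ∀ x ∈ RingHom.ker ρ₁, IsNilpotent x)
    (hs₀₁ : Function.Surjective ρ₀₁) (hn₀₁ : ∀ x ∈ RingHom.ker ρ₀₁, IsNilpotent x)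
    (G' : GlueDatum A' R₀' R₁' R₀₁') :
    ∃ G : GlueDatum A R₀ R₁ R₀₁, GlueDatum.IsBC ρ₀ ρ₁ ρ₀₁ G G' := by
  haveI := G'.invertible₀
  haveI := G'.invertible₁
  obtain ⟨M₀, _, _, hM₀, b₀, hb₀⟩ := exists_invertible_semilinear_lift ρ₀ hs₀ hn₀ G'.N₀
  obtain ⟨M₁, _, _, hM₁, b₁, hb₁⟩ := exists_invertible_semilinear_lift ρ₁ hs₁ hn₁ G'.N₁
  obtain ⟨c₀, hc₀, hc₀'⟩ :=
    exists_semilinear_baseChange_tensor ρ₀ ρ₀₁ h₀ b₀ hb₀ G'.r₀ G'.isBaseChange₀
  obtain ⟨c₁, hc₁, hc₁'⟩ :=
    exists_semilinear_baseChange_tensor ρ₁ ρ₀₁ h₁ b₁ hb₁ G'.r₁ G'.isBaseChange₁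
  obtain ⟨ψ, hψ⟩ := exists_linearEquiv_of_isSemilinearBaseChange ρ₀₁ hs₀₁ hn₀₁ c₀ c₁ hc₀ hc₁
  let r₁ : M₁ →ₗ[R₁] R₀₁ ⊗[R₀] M₀ :=
    (ψ.toLinearMap.restrictScalars R₁).comp (TensorProduct.mk R₁ R₀₁ M₁ 1)
  have hr₁ : IsBaseChange R₀₁ r₁ := IsBaseChange.of_equiv ψ (fun x => rfl)
  refine ⟨glueDatumOfModules A M₀ M₁ (R₀₁ ⊗[R₀] M₀) (TensorProduct.mk R₀ R₀₁ M₀ 1) r₁
    (TensorProduct.isBaseChange R₀ M₀ R₀₁) hr₁ hM₀ hM₁, ⟨?_⟩⟩
  exact
    { b₀ := b₀
      b₁ := b₁
      b₀₁ := c₀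
      comm₀ := fun s => hc₀' s
      comm₁ := fun s => (hψ _).trans (hc₁' s)
      isBaseChange₀ := hb₀
      isBaseChange₁ := hb₁
      isBaseChange₀₁ := hc₀ }

end Main

end Fermat.Agent.S25.H971
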