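import Fermat.Agent.S25.H971.ACCov1
import Fermat.Agent.S25.H671.ACCancel
import Fermat.Agent.S25.H747.CartierMul
import Fermat.Agent.S25.H911.ACPt
import Fermat.Agent.S25.H250.ACDeg2
import Fermat.Agent.S25.H190.ACDeg3
import Fermat.Agent.S25.H310.ACDeg1

/-!
# S25 / ALGCHARTS / COVER, sub-leaves COV2 and COV12: the Hilbert chart of a field point

Over a field `K ⊇ k`, a gluing datum `G` of degree `0` with `P2 x y n q G` and `m + g = n d`
satisfies `P3 x y n q β G` for a suitable Hilbert chart `β : Fin g → B₀`: the divisor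
`D' = div s - Σ q` of the generator `s` has degree `g`.

* `finite_quotient_of_finite_quotient_smul_top` : `N / J N` finite over `K`, `N` invertible
  `⇒ R / J` finite over `K`.
* `ptIdeal_invertible` : the ideal `ptIdeal q A` is an invertible module (any base `A`).
* `cov2` : `P2 ⇒ ∃ β, P3` over a field.
* `cov12` : COV1 + COV2 with the DEGREE inputs plugged in: a datum of degree `0` over a field
  satisfies `P3` for a numeric chart index (with `f = 1` and distinct points `q`).
-/

set_option autoImplicit false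
set_option linter.style.haveILetI false
set_option linter.unusedSectionVars false

universe u

open scoped TensorProduct

namespace Fermat.Agent.S25.H971

open Fermat.Agent.S25 Fermat.Agent.S25.H11

section Alg

variable {K R : Type u} [Field K] [CommRing R] [Algebra K R]

/-- If `N` is an invertible `R`-module and `N / J N` is finite over the field `K`, then so is
`R / J` (which acts faithfully on `N / J N`). -/
theorem finite_quotient_of_finite_quotient_smul_top {N : Type u} [AddCommGroup N] [Module R N]
    [Module K N] [IsScalarTower K R N] [Module.Invertible R N] (J : Ideal R)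
    (h : Module.Finite K (N ⧸ (J • ⊤ : Submodule R N))) : Module.Finite K (R ⧸ J) := by
  haveI := h
  let f : R →ₗ[K] Module.End K (N ⧸ (J • ⊤ : Submodule R N)) :=
    (Algebra.lsmul K K (N ⧸ (J • ⊤ : Submodule R N))).toLinearMap
  have hf : ∀ (r : R) (n : N), f r (Submodule.Quotient.mk n) =
      Submodule.Quotient.mk (r • n) := fun r n => rfl
  have hkerf : LinearMap.ker f = J.restrictScalars K := by
    ext r
    rw [LinearMap.mem_ker, Submodule.restrictScalars_mem]
    constructor
    · intro hr
      have h1 : (Ideal.span {r}) • (⊤ : Submodule R N) ≤ J • ⊤ := by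
        rw [Submodule.smul_le]
        intro a ha n _
        obtain ⟨c, rfl⟩ := Ideal.mem_span_singleton'.mp ha
        have h2 : r • n ∈ (J • ⊤ : Submodule R N) := by
          rw [← Submodule.Quotient.mk_eq_zero, ← hf, hr]
          rfl
        rw [mul_smul]
        exact Submodule.smul_mem _ c h2
      exact H671.ideal_le_of_smul_top_le h1 (Ideal.mem_span_singleton_self r)
    · intro hr
      apply LinearMap.ext
      intro v
      obtain ⟨n, rfl⟩ := Submodule.Quotient.mk_surjective _ v
      rw [hf, LinearMap.zero_apply, Submodule.Quotient.mk_eq_zero]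
      exact Submodule.smul_mem_smul hr Submodule.mem_top
  have h1 : Module.Finite K (R ⧸ LinearMap.ker f) :=
    Module.Finite.equiv f.quotKerEquivRange.symm
  rw [hkerf] at h1
  exact Module.Finite.equiv (Submodule.Quotient.restrictScalarsEquiv K J)

/-- The dimension count behind COV2: if `M' = (I' Q) N` in an invertible module `N`, with `Q` an
invertible ideal, and `N / M'` is finite over `K`, then `R / I'` is finite over `K` and
`dim N / M' = dim R / I' + dim R / Q`. -/
theorem finrank_quotient_of_eq_mul_smul_top {N : Type u} [AddCommGroup N] [Module R N]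
    [Module K N] [IsScalarTower K R N] [Module.Invertible R N] (I' Q : Ideal R)
    [Module.Invertible R Q] [Module.Finite K (R ⧸ Q)] (M' : Submodule R N)
    (hspan : M' = (I' * Q) • (⊤ : Submodule R N)) (hfin : Module.Finite K (N ⧸ M')) :
    Module.Finite K (R ⧸ I') ∧
      Module.finrank K (N ⧸ M') = Module.finrank K (R ⧸ I') + Module.finrank K (R ⧸ Q) := by
  subst hspan
  haveI hfinJ : Module.Finite K (R ⧸ (I' * Q)) :=
    finite_quotient_of_finite_quotient_smul_top _ hfin
  have hle : I' * Q ≤ I' := Ideal.mul_le_left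
  haveI hfinI : Module.Finite K (R ⧸ I') :=
    Module.Finite.of_surjective (Ideal.Quotient.factorₐ K hle).toLinearMap
      (Ideal.Quotient.factor_surjective hle)
  obtain ⟨-, hr⟩ := H911.finrank_quotient_mul_invertible (K := K) I' Q
  obtain ⟨-, hrN⟩ := H911.finrank_quotient_smul_top_invertible (K := K) (N := N) (I' * Q)
  exact ⟨hfinI, by rw [hrN, hr]⟩

end Alg

variable {k : Type u} [Field k] [IsAlgClosed k]
  {B₀ B₁ B₀₁ : Type u} [CommRing B₀] [CommRing B₁] [CommRing B₀₁]
  [Algebra k B₀] [Algebra k B₁] [Algebra k B₀₁] [Algebra B₀ B₀₁] [Algebra B₁ B₀₁]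
  [IsScalarTower k B₀ B₀₁] [IsScalarTower k B₁ B₀₁]
  {x : B₀} {y : B₁} {e : B₁ →ₐ[k] k}

/-- The ideal of the divisor `Σ q i` is an invertible module, over any base. -/
theorem ptIdeal_invertible (hC : IsCurveChart k B₀ B₁ B₀₁ x y e) :
    ∀ {m : ℕ} (q : Fin m → (B₀ →ₐ[k] k)) (A : Type u) [CommRing A] [Algebra k A],
      Module.Invertible (A ⊗[k] B₀) (ptIdeal q A) := by
  intro m
  induction m with
  | zero =>
    intro q A _ _
    have h : ptIdeal q A = 1 := by
      unfold ptIdeal
      rw [Finset.univ_eq_empty, Finset.prod_empty]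
    rw [h]
    exact H747.invertible_one
  | succ m ih =>
    intro q A _ _
    have h : ptIdeal q A =
        RingHom.ker (ptHom (q 0) A) * ptIdeal (fun i : Fin m => q i.succ) A := by
      unfold ptIdeal
      rw [Fin.prod_univ_succ]
    rw [h]
    haveI := H911.ker_ptHom_invertible hC (q 0) A
    haveI := ih (fun i : Fin m => q i.succ) A
    exact H747.invertible_mul _ _

section Field

variable {K : Type u} [Field K] [Algebra k K]

/-- **COV2.**  Over a field, `P2` with the numerical constraint `m + g = n d` and degree `0`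
gives `P3` for some Hilbert chart `β : Fin g → B₀`. -/
theorem cov2 (hC : IsCurveChart k B₀ B₁ B₀₁ x y e) (G : CurveGD k B₀ B₁ B₀₁ K)
    (hdeg : G.degree = 0) {n m g : ℕ} (q : Fin m → (B₀ →ₐ[k] k))
    (hnum : m + g = n * Module.finrank k (B₁ ⧸ Ideal.span {y}))
    (h2 : P2 x y n q G) : ∃ β : Fin g → B₀, P3 x y n q β G := by
  obtain ⟨h1, s, hs⟩ := h2
  haveI := G.invertible₀
  haveI := ptIdeal_invertible hC q K
  obtain ⟨hfin, hdg⟩ := H250.degree_eq_of_section hC G n s hs.mem.1 hs.gen
  have hle : Submodule.span (K ⊗[k] B₀) {s.1} ≤ ptIdeal q K • (⊤ : Submodule _ G.N₀) := by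
    rw [Submodule.span_singleton_le_iff_mem]
    exact hs.mem.2
  obtain ⟨I', hspan⟩ : ∃ I' : Ideal (K ⊗[k] B₀), Submodule.span (K ⊗[k] B₀) {s.1} =
      (I' * ptIdeal q K) • (⊤ : Submodule _ G.N₀) :=
    ⟨_, H671.submodule_eq_colon_mul_smul_top hle⟩
  obtain ⟨hfq, hrq⟩ := H911.finrank_quotient_ptIdeal (K := K) hC q
  haveI := hfq
  obtain ⟨hfinI, hdim⟩ := finrank_quotient_of_eq_mul_smul_top (K := K) I' (ptIdeal q K)
    (Submodule.span (K ⊗[k] B₀) {s.1}) hspan hfin
  have hg : Module.finrank K ((K ⊗[k] B₀) ⧸ I') = g := by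
    rw [hdeg, hdim, hrq] at hdg
    omega
  have hHilb : H491.IsHilb g I' := by
    refine ⟨hfinI, inferInstance, fun p => ?_⟩
    rw [Module.rankAtStalk_eq_finrank_of_free, hg]
    rfl
  obtain ⟨β, hβ⟩ := H491.exists_isChart_of_isLocalRing hHilb
  exact ⟨β, h1, s, hs, I', hβ, hspan⟩

/-- **COV12** (= COV1 + COV2, DEGREE inputs plugged in).  A gluing datum of degree `0` over a
field `K ⊇ k` satisfies `P3` for a numeric chart index with `f = 1` and distinct points. -/
theorem cov12 (hC : IsCurveChart k B₀ B₁ B₀₁ x y e) (G : CurveGD k B₀ B₁ B₀₁ K)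
    (hdeg : G.degree = 0) :
    ∃ i : ChartIndex k B₀, i.Numeric B₀₁ y ∧ i.f = 1 ∧ Function.Injective i.q ∧
      P3 x y i.n i.q i.β G := by
  obtain ⟨n, m, q, hq, hnum, h2⟩ := cov1 hC G (H190.exists_P0 hC G)
    (fun n h0 => H310.finrank_sec hC G hdeg n h0)
  obtain ⟨β, h3⟩ := cov2 hC G hdeg q hnum h2
  exact ⟨⟨n, m, _, q, β, 1⟩, ⟨hnum, rfl⟩, rfl, hq, h3⟩

end Field

end Fermat.Agent.S25.H971
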