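import Fermat.Agent.S25.H971.Lift

/-!
# S25 / ALGCHARTS / COVER: generic module lemmas (Mathlib only)

* `inf_smul_top_le_mul_smul_top`, `iInf_smul_top_le_prod_smul_top` : Chinese remainder theorem for
  modules, `⋂ (J i • N) = (∏ J i) • N` for pairwise coprime ideals.
* `smul_top_ne_top_of_invertible` : `P • N ≠ N` for a proper ideal `P` and an invertible `N`.
* `exists_sub_smul_mem_of_notMem` : the fibre `N / P N` of an invertible module at a maximal ideal
  is spanned by any element outside `P N`.
* `span_sup_smul_top_eq_top` : `s` generates `N` modulo `I` as soon as `s` does not vanish at any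
  maximal ideal containing `I`.
* `finrank_quotient_ker_smul_top` : the fibre of an invertible module at a rational point is
  one-dimensional.
-/

set_option autoImplicit false
set_option linter.style.haveILetI false

open TensorProduct

namespace Fermat.Agent.S25.H971

section CRT

variable {R : Type*} [CommRing R] {N : Type*} [AddCommGroup N] [Module R N]

/-- For coprime ideals, `I N ∩ J N ⊆ (I J) N`. -/
theorem inf_smul_top_le_mul_smul_top {I J : Ideal R} (h : IsCoprime I J) :
    (I • ⊤ : Submodule R N) ⊓ (J • ⊤ : Submodule R N) ≤ ((I * J) • ⊤ : Submodule R N) := by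
  obtain ⟨a, ha, b, hb, hab⟩ := Ideal.isCoprime_iff_exists.mp h
  intro n hn
  have hn1 : n ∈ (I • ⊤ : Submodule R N) := hn.1
  have hn2 : n ∈ (J • ⊤ : Submodule R N) := hn.2
  have h1 : a • n ∈ ((I * J) • ⊤ : Submodule R N) := by
    rw [Submodule.mul_smul]
    exact Submodule.smul_mem_smul ha hn2
  have h2 : b • n ∈ ((I * J) • ⊤ : Submodule R N) := by
    rw [mul_comm, Submodule.mul_smul]
    exact Submodule.smul_mem_smul hb hn1
  have : n = a • n + b • n := by rw [← add_smul, hab, one_smul]
  rw [this]
  exact Submodule.add_mem _ h1 h2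

/-- Chinese remainder theorem for modules: an element lying in `J i • N` for all `i` of a finite
family of pairwise coprime ideals lies in `(∏ J i) • N`. -/
theorem mem_prod_smul_top_of_forall_mem {ι : Type*} (s : Finset ι) (J : ι → Ideal R)
    (hp : (s : Set ι).Pairwise (fun i j => IsCoprime (J i) (J j))) (n : N)
    (hn : ∀ i ∈ s, n ∈ (J i • ⊤ : Submodule R N)) :
    n ∈ ((∏ i ∈ s, J i) • ⊤ : Submodule R N) := by
  classical
  induction s using Finset.induction with
  | empty => simp
  | insert a s ha ih =>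
    rw [Finset.prod_insert ha]
    have hp' : (s : Set ι).Pairwise (fun i j => IsCoprime (J i) (J j)) :=
      hp.mono (by simp)
    have hcop : IsCoprime (J a) (∏ i ∈ s, J i) := by
      refine IsCoprime.prod_right fun i hi => ?_
      exact hp (by simp) (by simp [hi]) (fun h => ha (h ▸ hi))
    exact inf_smul_top_le_mul_smul_top hcop
      ⟨hn a (by simp), ih hp' fun i hi => hn i (by simp [hi])⟩

/-- An element of `(∏ J i) • N` lies in every `J i • N`. -/
theorem mem_smul_top_of_mem_prod_smul_top {ι : Type*} (s : Finset ι) (J : ι → Ideal R) (n : N)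
    (hn : n ∈ ((∏ i ∈ s, J i) • ⊤ : Submodule R N)) {i : ι} (hi : i ∈ s) :
    n ∈ (J i • ⊤ : Submodule R N) :=
  Submodule.smul_mono_left (Ideal.prod_le_inf.trans (Finset.inf_le hi)) hn

end CRT

section Invertible

variable {R : Type*} [CommRing R] {N : Type*} [AddCommGroup N] [Module R N]
  [Module.Invertible R N]

/-- `P • N ≠ N` for a proper ideal `P` and an invertible module `N`. -/
theorem smul_top_ne_top_of_invertible [Nontrivial R] {P : Ideal R} (hP : P ≠ ⊤) :
    (P • ⊤ : Submodule R N) ≠ ⊤ := by
  intro h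
  obtain ⟨r, hr, hr0⟩ := Submodule.exists_sub_one_mem_and_smul_eq_zero_of_fg_of_le_smul P
    (⊤ : Submodule R N) Module.Finite.fg_top (by rw [h])
  have hr' : r = 0 := by
    have hfaith : Function.Injective (fun (a : R) => (fun n : N => a • n)) :=
      fun a b hab => FaithfulSMul.eq_of_smul_eq_smul (M := R) (α := N) (fun n => congrFun hab n)
    apply hfaith
    funext n
    show r • n = (0 : R) • n
    rw [hr0 n Submodule.mem_top, zero_smul]
  rw [hr', zero_sub] at hr
  exact hP ((Ideal.eq_top_iff_one P).mpr (by simpa using P.neg_mem hr))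

/-- The fibre `N / P N` of an invertible module at a maximal ideal is spanned by any element
outside `P N`. -/
theorem exists_sub_smul_mem_of_notMem {P : Ideal R} [hP : P.IsMaximal] {s : N}
    (hs : s ∉ (P • ⊤ : Submodule R N)) (c : N) :
    ∃ r : R, c - r • s ∈ (P • ⊤ : Submodule R N) := by
  letI : Field (R ⧸ P) := Ideal.Quotient.field P
  have hsurj : Function.Surjective (algebraMap R (R ⧸ P)) := Ideal.Quotient.mk_surjective
  have hker : RingHom.ker (algebraMap R (R ⧸ P)) = P := by
    rw [Ideal.Quotient.algebraMap_eq, Ideal.mk_ker]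
  have h1 : Module.finrank (R ⧸ P) ((R ⧸ P) ⊗[R] N) = 1 :=
    Module.Invertible.finrank_eq_one (R ⧸ P) ((R ⧸ P) ⊗[R] N)
  have hs0 : (1 : R ⧸ P) ⊗ₜ[R] s ≠ 0 := by
    rw [Ne, one_tmul_eq_zero_iff hsurj, hker]
    exact hs
  obtain ⟨f, hf⟩ := (finrank_eq_one_iff_of_nonzero' _ hs0).mp h1 ((1 : R ⧸ P) ⊗ₜ[R] c)
  obtain ⟨r, rfl⟩ := hsurj f
  refine ⟨r, ?_⟩
  rw [← hker, ← one_tmul_eq_zero_iff hsurj, TensorProduct.tmul_sub, sub_eq_zero, ← hf,
    TensorProduct.tmul_smul, algebraMap_smul]

/-- If `s` does not vanish at any maximal ideal containing `I`, then `s` generates `N` modulo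
`I`. -/
theorem span_sup_smul_top_eq_top {I : Ideal R} {s : N}
    (hs : ∀ P : Ideal R, P.IsMaximal → I ≤ P → s ∉ (P • ⊤ : Submodule R N)) :
    Submodule.span R {s} ⊔ (I • ⊤ : Submodule R N) = ⊤ := by
  set W : Submodule R N := Submodule.span R {s} ⊔ (I • ⊤ : Submodule R N) with hW
  by_contra hne
  -- the conductor of `W`
  have hcol : W.colon (⊤ : Set N) ≠ ⊤ := by
    intro h
    apply hne
    rw [eq_top_iff]
    intro n _
    have h1 : (1 : R) ∈ W.colon (⊤ : Set N) := by rw [h]; exact Submodule.mem_top
    rw [Submodule.mem_colon] at h1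
    simpa using h1 n (Set.mem_univ n)
  obtain ⟨P, hP, hle⟩ := Ideal.exists_le_maximal _ hcol
  have hIP : I ≤ P := by
    intro a ha
    apply hle
    rw [Submodule.mem_colon]
    intro n _
    exact Submodule.mem_sup_right (Submodule.smul_mem_smul ha Submodule.mem_top)
  have hsP := hs P hP hIP
  -- `N = W + P N`
  have htop : (⊤ : Submodule R N) ≤ W ⊔ (P • ⊤ : Submodule R N) := by
    intro c _
    obtain ⟨r, hr⟩ := exists_sub_smul_mem_of_notMem (P := P) hsP c
    have : c = r • s + (c - r • s) := by abel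
    rw [this]
    exact Submodule.add_mem_sup
      (Submodule.mem_sup_left (Submodule.smul_mem _ _ (Submodule.mem_span_singleton_self s))) hr
  -- Nakayama for `N / W`
  have hq : (⊤ : Submodule R (N ⧸ W)) ≤ P • (⊤ : Submodule R (N ⧸ W)) := by
    intro z _
    obtain ⟨n, rfl⟩ := W.mkQ_surjective z
    have hn : n ∈ W ⊔ (P • ⊤ : Submodule R N) := htop Submodule.mem_top
    obtain ⟨w, hw, p, hp, rfl⟩ := Submodule.mem_sup.mp hn
    have hw0 : W.mkQ w = 0 := (Submodule.Quotient.mk_eq_zero W).mpr hw
    rw [map_add, hw0, zero_add]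
    have : W.mkQ p ∈ Submodule.map W.mkQ (P • (⊤ : Submodule R N)) :=
      Submodule.mem_map_of_mem hp
    rw [Submodule.map_smul''] at this
    exact Submodule.smul_mono le_rfl le_top this
  obtain ⟨r, hr, hr0⟩ := Submodule.exists_sub_one_mem_and_smul_eq_zero_of_fg_of_le_smul P
    (⊤ : Submodule R (N ⧸ W)) Module.Finite.fg_top hq
  have hrW : r ∈ W.colon (⊤ : Set N) := by
    rw [Submodule.mem_colon]
    intro n _
    have := hr0 (W.mkQ n) Submodule.mem_top
    rw [← map_smul] at this
    exact (Submodule.Quotient.mk_eq_zero W).mp this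
  have hrP : r ∈ P := hle hrW
  apply hP.ne_top
  rw [Ideal.eq_top_iff_one]
  have : (1 : R) = r - (r - 1) := by ring
  rw [this]
  exact P.sub_mem hrP hr

end Invertible

section Rational

variable {K : Type*} [Field K] {R : Type*} [CommRing R] [Algebra K R] {N : Type*}
  [AddCommGroup N] [Module R N] [Module K N] [IsScalarTower K R N] [Module.Invertible R N]

/-- The fibre of an invertible module at a `K`-rational point is one-dimensional over `K`. -/
theorem finrank_quotient_ker_smul_top (π : R →ₐ[K] K) :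
    Module.finrank K (N ⧸ (RingHom.ker π • ⊤ : Submodule R N)) = 1 := by
  have hπ : Function.Surjective π := fun c => ⟨algebraMap K R c, by simp⟩
  haveI hmax : (RingHom.ker π).IsMaximal := RingHom.ker_isMaximal_of_surjective π hπ
  haveI : Nontrivial R := ⟨⟨0, 1, fun h => by
    have := congrArg π h
    simp at this⟩⟩
  set W : Submodule R N := RingHom.ker π • ⊤ with hW
  obtain ⟨s, hs⟩ : ∃ s : N, s ∉ W := by
    by_contra hcon
    push Not at hcon
    exact smul_top_ne_top_of_invertible (N := N) hmax.ne_top (eq_top_iff.mpr fun n _ => hcon n)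
  have hs0 : (W.mkQ s) ≠ 0 := fun h => hs ((Submodule.Quotient.mk_eq_zero W).mp h)
  rw [finrank_eq_one_iff_of_nonzero' (W.mkQ s) hs0]
  intro z
  obtain ⟨c, rfl⟩ := W.mkQ_surjective z
  obtain ⟨r, hr⟩ := exists_sub_smul_mem_of_notMem (P := RingHom.ker π) hs c
  refine ⟨π r, ?_⟩
  -- `r ≡ π r` modulo `ker π`
  have h1 : r - algebraMap K R (π r) ∈ RingHom.ker π := by
    rw [RingHom.mem_ker, map_sub, AlgHom.commutes]
    simp
  have h2 : (r - algebraMap K R (π r)) • s ∈ W := Submodule.smul_mem_smul h1 Submodule.mem_top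
  have h3 : c - (π r) • s ∈ W := by
    have : c - (π r) • s = (c - r • s) + (r - algebraMap K R (π r)) • s := by
      rw [sub_smul, algebraMap_smul]
      abel
    rw [this]
    exact W.add_mem hr h2
  symm
  rw [← sub_eq_zero]
  have : W.mkQ c - π r • W.mkQ s = W.mkQ (c - π r • s) := by
    rw [map_sub]
    rfl
  rw [this]
  exact (Submodule.Quotient.mk_eq_zero W).mpr h3

end Rational

end Fermat.Agent.S25.H971
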