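import Fermat.Agent.S25.H971.AlgDef
import Fermat.Agent.S25.H205.BridgeDef

/-!
# S25 / GDC: rigidifiability lifts along nilpotent thickenings (`H205.RigLift`)

If `G` over `A` reduces to `G₀` over `A ⧸ I` with `I` nilpotent and `G₀` is rigidifiable along
the marked point, then so is `G`: the invertible `A`-module `e^* N₁` is free modulo `I`, hence
free.
-/

set_option autoImplicit false
set_option linter.style.haveILetI false

open TensorProduct

namespace Fermat.Agent.S25.H971

universe u

section Abstract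

variable {R R' S S' : Type u} [CommRing R] [CommRing R'] [CommRing S] [CommRing S']

/-- A ring homomorphism, viewed as a semilinear map, is a semilinear base change. -/
theorem isSemilinearBaseChange_ringHom (σ : S →+* S') :
    IsSemilinearBaseChange σ
      ({ toFun := fun a => σ a
         map_add' := fun a b => map_add σ a b
         map_smul' := fun a b => map_mul σ a b } : S →ₛₗ[σ] S') := by
  letI : Algebra S S' := σ.toAlgebra
  exact IsBaseChange.linearMap S S'

/-- **Trivialisations lift.**  A commutative square of ring maps `σ ∘ ε = ε' ∘ ρ` with `σ`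
surjective with nil kernel, `N` a finite projective `R`-module with base change `N'` along `ρ`.
Every trivialisation of `ε'^* N'` lifts to a trivialisation of `ε^* N`. -/
theorem exists_semilinear_trivialisation_lift (ε : R →+* S) (ε' : R' →+* S') (ρ : R →+* R')
    (σ : S →+* S') (hcomm : σ.comp ε = ε'.comp ρ) (hsurj : Function.Surjective σ)
    (hnil : ∀ x ∈ RingHom.ker σ, IsNilpotent x)
    {N N' : Type u} [AddCommGroup N] [Module R N] [Module.Finite R N] [Module.Projective R N]
    [AddCommGroup N'] [Module R' N'] (b : N →ₛₗ[ρ] N') (hb : IsSemilinearBaseChange ρ b)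
    (r' : N' →ₛₗ[ε'] S') (hr' : IsSemilinearBaseChange ε' r') :
    ∃ r : N →ₛₗ[ε] S, IsSemilinearBaseChange ε r ∧ ∀ n, σ (r n) = r' (b n) := by
  letI aε : Algebra R S := ε.toAlgebra
  letI aε' : Algebra R' S' := ε'.toAlgebra
  letI mε' : Module R' S' := Module.compHom S' ε'
  haveI tε' : IsScalarTower R' S' S' := ⟨fun r r' n => by
    change (ε' r * r') • n = ε' r • (r' • n)
    rw [mul_smul]⟩
  let r'l : N' →ₗ[R'] S' :=
    { toFun := fun n => r' n
      map_add' := fun m n => r'.map_add m n
      map_smul' := fun r n => LinearMap.map_smulₛₗ r' r n }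
  have hr'l : IsBaseChange S' r'l := hr'
  obtain ⟨c, hc, hc'⟩ := exists_semilinear_baseChange_tensor (S := S) (S' := S') ρ σ hcomm b hb
    r'l hr'l
  obtain ⟨ψ, hψ⟩ := exists_linearEquiv_of_isSemilinearBaseChange σ hsurj hnil _ c
    (isSemilinearBaseChange_ringHom σ) hc
  let r : N →ₛₗ[ε] S :=
    { toFun := fun m => ψ ((1 : S) ⊗ₜ[R] m)
      map_add' := fun m n => by rw [TensorProduct.tmul_add, map_add]
      map_smul' := fun r m => by
        rw [TensorProduct.tmul_smul, TensorProduct.smul_tmul', ← map_smul]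
        congr 2 }
  refine ⟨r, isSemilinearBaseChange_of_equiv ε r ψ (fun m => rfl), fun n => ?_⟩
  exact (hψ _).trans (hc' n)

end Abstract

section

variable {k : Type u} [Field k]

theorem epsHom_tmul {B₁ : Type u} [CommRing B₁] [Algebra k B₁] (e : B₁ →ₐ[k] k) (A : Type u)
    [CommRing A] [Algebra k A] (a : A) (b : B₁) :
    epsHom e A (a ⊗ₜ[k] b) = a * algebraMap k A (e b) := by
  simp [epsHom, Algebra.ofId_apply]

/-- The marked point is compatible with base change. -/
theorem epsHom_comp_tensorMapLeft {B₁ : Type u} [CommRing B₁] [Algebra k B₁] (e : B₁ →ₐ[k] k)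
    {A A' : Type u} [CommRing A] [Algebra k A] [CommRing A'] [Algebra k A'] (φ : A →ₐ[k] A') :
    φ.toRingHom.comp (epsHom e A).toRingHom =
      (epsHom e A').toRingHom.comp (tensorMapLeft k φ B₁) := by
  refine RingHom.ext fun z => ?_
  induction z using TensorProduct.induction_on with
  | zero => simp
  | tmul a b =>
    change φ (epsHom e A (a ⊗ₜ[k] b)) = epsHom e A' (tensorMapLeft k φ B₁ (a ⊗ₜ[k] b))
    rw [tensorMapLeft_tmul, epsHom_tmul, epsHom_tmul, map_mul, AlgHom.commutes]
  | add x y hx hy => rw [map_add, map_add, hx, hy]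

variable {B₀ B₁ B₀₁ : Type u} [CommRing B₀] [CommRing B₁] [CommRing B₀₁]
  [Algebra k B₀] [Algebra k B₁] [Algebra k B₀₁] [Algebra B₀ B₀₁] [Algebra B₁ B₀₁]
  [IsScalarTower k B₀ B₀₁] [IsScalarTower k B₁ B₀₁]

/-- Rigidifiability lifts along `A → A ⧸ I` for every nilpotent ideal `I`. -/
theorem rigidifiable_of_isBC_quotient (e : B₁ →ₐ[k] k) {A : Type u} [CommRing A] [Algebra k A]
    (I : Ideal A) {n : ℕ} (hI : I ^ n = ⊥) (G : CurveGD k B₀ B₁ B₀₁ A)
    (G₀ : CurveGD k B₀ B₁ B₀₁ (A ⧸ I)) (h : CurveGD.IsBC (Ideal.Quotient.mkₐ k I) G G₀)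
    (hr : G₀.Rigidifiable e) : G.Rigidifiable e := by
  obtain ⟨bc⟩ := h
  obtain ⟨r₀, hr₀⟩ := hr
  haveI := G.invertible₁
  have hnil : ∀ x ∈ RingHom.ker (Ideal.Quotient.mk I), IsNilpotent x := by
    intro x hx
    rw [Ideal.mk_ker] at hx
    refine ⟨n, ?_⟩
    have h : x ^ n ∈ I ^ n := Ideal.pow_mem_pow hx n
    rw [hI] at h
    simpa using h
  obtain ⟨r, hr, -⟩ := exists_semilinear_trivialisation_lift (epsHom e A).toRingHom
    (epsHom e (A ⧸ I)).toRingHom (tensorMapLeft k (Ideal.Quotient.mkₐ k I) B₁)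
    (Ideal.Quotient.mk I) (epsHom_comp_tensorMapLeft e (Ideal.Quotient.mkₐ k I))
    Ideal.Quotient.mk_surjective hnil bc.b₁ bc.isBaseChange₁ r₀ hr₀
  exact ⟨r, hr⟩

/-- **RigLift** in the frozen form consumed by the master assembly. -/
theorem rigLift (e : B₁ →ₐ[k] k) : H205.RigLift B₀ B₁ B₀₁ e :=
  fun _ _ _ I hI G G₀ h hr => rigidifiable_of_isBC_quotient e I hI G G₀ h hr

end

end Fermat.Agent.S25.H971
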