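import Mathlib

/-!
# S25 / block HILB / leaf H0a: Schanuel's lemma

Two presentations `0 → K → P → M → 0`, `0 → K' → P' → M → 0` of the same module with `P`, `P'`
projective give `K × P' ≃ K' × P`.
-/

set_option autoImplicit false
set_option linter.style.haveILetI false
set_option linter.unusedSectionVars false

namespace Fermat.Agent.S25.H971

universe u

section Split

variable {R : Type*} [Ring R] {X P : Type*} [AddCommGroup X] [Module R X] [AddCommGroup P]
  [Module R P]

/-- A surjection onto a projective module splits: `X ≃ ker f × P`. -/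
theorem nonempty_equiv_ker_prod [Module.Projective R P] (f : X →ₗ[R] P)
    (hf : Function.Surjective f) : Nonempty (X ≃ₗ[R] (LinearMap.ker f × P)) := by
  obtain ⟨s, hs⟩ := Module.projective_lifting_property f LinearMap.id hf
  have hs' : ∀ p, f (s p) = p := fun p => by
    have := congrArg (fun g => g p) hs
    simpa using this
  refine ⟨LinearEquiv.ofLinearMap
    ((LinearMap.id - s ∘ₗ f).codRestrict (LinearMap.ker f) (fun x => by simp [hs']) |>.prod f)
    ((LinearMap.ker f).subtype.coprod s) ?_ ?_⟩
  · apply LinearMap.ext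
    rintro ⟨⟨k, hk⟩, p⟩
    have hk' : f k = 0 := hk
    apply Prod.ext
    · apply Subtype.ext
      simp [hs', hk']
    · simp [hs', hk']
  · apply LinearMap.ext
    intro x
    simp

end Split

section Schanuel

variable {R : Type*} [Ring R] {K K' P P' M : Type*}
  [AddCommGroup K] [Module R K] [AddCommGroup K'] [Module R K']
  [AddCommGroup P] [Module R P] [AddCommGroup P'] [Module R P']
  [AddCommGroup M] [Module R M]

/-- The pullback `P ×_M P'`. -/
def pullbackSub (π : P →ₗ[R] M) (π' : P' →ₗ[R] M) : Submodule R (P × P') :=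
  LinearMap.ker (π.coprod (-π'))

theorem mem_pullbackSub (π : P →ₗ[R] M) (π' : P' →ₗ[R] M) (x : P × P') :
    x ∈ pullbackSub π π' ↔ π x.1 = π' x.2 := by
  simp [pullbackSub, sub_eq_zero, ← sub_eq_add_neg]

/-- The pullback of a short exact sequence along a map from a projective module splits:
`P ×_M P' ≃ K' × P`. -/
theorem nonempty_pullback_equiv [Module.Projective R P] (π : P →ₗ[R] M)
    (i' : K' →ₗ[R] P') (π' : P' →ₗ[R] M)
    (hi' : Function.Injective i') (hπ' : Function.Surjective π')
    (hex' : LinearMap.range i' = LinearMap.ker π') :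
    Nonempty (pullbackSub π π' ≃ₗ[R] (K' × P)) := by
  -- first projection restricted to the pullback
  let f : pullbackSub π π' →ₗ[R] P := (LinearMap.fst R P P') ∘ₗ (pullbackSub π π').subtype
  have hf : Function.Surjective f := by
    intro p
    obtain ⟨p', hp'⟩ := hπ' (π p)
    exact ⟨⟨(p, p'), (mem_pullbackSub π π' _).mpr hp'.symm⟩, rfl⟩
  obtain ⟨e⟩ := nonempty_equiv_ker_prod f hf
  -- the kernel of `f` is `K'`
  have hmem : ∀ k : K', ((0 : P), i' k) ∈ pullbackSub π π' := by
    intro k
    rw [mem_pullbackSub]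
    have : i' k ∈ LinearMap.ker π' := hex' ▸ LinearMap.mem_range_self i' k
    simp [LinearMap.mem_ker.mp this]
  let j : K' →ₗ[R] LinearMap.ker f :=
    { toFun := fun k => ⟨⟨((0 : P), i' k), hmem k⟩, rfl⟩
      map_add' := fun a b => by
        apply Subtype.ext; apply Subtype.ext
        simp
      map_smul' := fun r a => by
        apply Subtype.ext; apply Subtype.ext
        simp }
  have hj : Function.Bijective j := by
    constructor
    · intro a b hab
      have h1 := congrArg (fun z : LinearMap.ker f => (z : pullbackSub π π').1.2) hab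
      exact hi' h1
    · rintro ⟨⟨⟨p, p'⟩, hx⟩, hker⟩
      have hp : p = 0 := hker
      subst hp
      have hp' : π' p' = 0 := by
        have := (mem_pullbackSub π π' _).mp hx
        simpa using this.symm
      have : p' ∈ LinearMap.range i' := hex' ▸ (LinearMap.mem_ker.mpr hp')
      obtain ⟨k, rfl⟩ := this
      exact ⟨k, rfl⟩
  let E : K' ≃ₗ[R] LinearMap.ker f := LinearEquiv.ofBijective j hj
  exact ⟨e ≪≫ₗ (E.symm.prodCongr (LinearEquiv.refl R P))⟩

/-- The swap `P ×_M P' ≃ P' ×_M P`. -/
def pullbackSwap (π : P →ₗ[R] M) (π' : P' →ₗ[R] M) :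
    pullbackSub π π' ≃ₗ[R] pullbackSub π' π where
  toFun x := ⟨(x.1.2, x.1.1), (mem_pullbackSub π' π _).mpr ((mem_pullbackSub π π' _).mp x.2).symm⟩
  invFun x := ⟨(x.1.2, x.1.1), (mem_pullbackSub π π' _).mpr ((mem_pullbackSub π' π _).mp x.2).symm⟩
  map_add' _ _ := rfl
  map_smul' _ _ := rfl
  left_inv _ := rfl
  right_inv _ := rfl

/-- **Schanuel's lemma**, general universes, any ring. -/
theorem schanuel' [Module.Projective R P] [Module.Projective R P']
    (i : K →ₗ[R] P) (π : P →ₗ[R] M) (i' : K' →ₗ[R] P') (π' : P' →ₗ[R] M)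
    (hi : Function.Injective i) (hπ : Function.Surjective π)
    (hex : LinearMap.range i = LinearMap.ker π)
    (hi' : Function.Injective i') (hπ' : Function.Surjective π')
    (hex' : LinearMap.range i' = LinearMap.ker π') :
    Nonempty ((K × P') ≃ₗ[R] (K' × P)) := by
  obtain ⟨e₁⟩ := nonempty_pullback_equiv π i' π' hi' hπ' hex'
  obtain ⟨e₂⟩ := nonempty_pullback_equiv π' i π hi hπ hex
  exact ⟨e₂.symm ≪≫ₗ (pullbackSwap π' π) ≪≫ₗ e₁⟩

end Schanuel

/-- **H0a (Schanuel)**, in the exact shape of the squad skeleton. -/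
theorem schanuel {R : Type u} [CommRing R] {K K' P P' M : Type u}
    [AddCommGroup K] [Module R K] [AddCommGroup K'] [Module R K']
    [AddCommGroup P] [Module R P] [AddCommGroup P'] [Module R P']
    [AddCommGroup M] [Module R M] [Module.Projective R P] [Module.Projective R P']
    (i : K →ₗ[R] P) (π : P →ₗ[R] M) (i' : K' →ₗ[R] P') (π' : P' →ₗ[R] M)
    (hi : Function.Injective i) (hπ : Function.Surjective π) (hex : LinearMap.range i = LinearMap.ker π)
    (hi' : Function.Injective i') (hπ' : Function.Surjective π')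
    (hex' : LinearMap.range i' = LinearMap.ker π') :
    Nonempty ((K × P') ≃ₗ[R] (K' × P)) :=
  schanuel' i π i' π' hi hπ hex hi' hπ' hex'

end Fermat.Agent.S25.H971
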