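import Mathlib

/-!
# S25 / block HILB / leaf H5: finitely generated torsion-free modules over a valuation ring

`V` a valuation ring (a domain with `ValuationRing V`), e.g. `↥A` for `A : ValuationSubring K`.

* `free_of_finite_of_isTorsionFree` : a finitely generated torsion-free `V`-module is free.
* `free_of_finite_of_injective` : a finitely generated `V`-module embedding into a torsion-free
  module is free.
* `exists_dvd_all` : in a finite nonempty family of elements of `V` one divides all the others.
* `exists_primitive` : every nonzero vector `m` of a finite free `V`-module is `c • m'` with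
  `c ≠ 0` and `m'` primitive (`m' ∉ 𝔪 • ⊤`).
* `exists_primitive_of_finite_torsionFree` : the same for finitely generated torsion-free modules.
* `exists_primitive_fraction` : every nonzero element `x` of `K ⊗[V] M` (`K = Frac V`) can be
  rescaled by some `c ∈ Kˣ` to `1 ⊗ m'` with `m'` primitive.
* `ker_isCompl_of_free` : the kernel of a linear map from a finite `V`-module to a torsion-free
  `V`-module is a direct summand, and kernel and range are finite free.
-/

set_option autoImplicit false
set_option linter.style.haveILetI false
set_option linter.unusedSectionVars false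

open TensorProduct

namespace Fermat.Agent.S25.H971

section ValuationRing

variable {V : Type*} [CommRing V] [IsDomain V] [ValuationRing V]

/-- A finitely generated torsion-free module over a valuation ring is free. -/
theorem free_of_finite_of_isTorsionFree (M : Type*) [AddCommGroup M] [Module V M]
    [Module.Finite V M] [Module.IsTorsionFree V M] : Module.Free V M := by
  haveI : Module.Flat V M :=
    Module.Flat.flat_iff_torsion_eq_bot_of_isBezout.mpr
      (Submodule.isTorsionFree_iff_torsion_eq_bot.mp inferInstance)
  exact Module.free_of_flat_of_isLocalRing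

/-- A finitely generated module over a valuation ring which embeds into a torsion-free module is
free. -/
theorem free_of_finite_of_injective {M N : Type*} [AddCommGroup M] [Module V M]
    [AddCommGroup N] [Module V N] [Module.Finite V M] [Module.IsTorsionFree V N]
    (f : M →ₗ[V] N) (hf : Function.Injective f) : Module.Free V M := by
  haveI : Module.IsTorsionFree V M := hf.moduleIsTorsionFree f (fun r m => map_smul f r m)
  exact free_of_finite_of_isTorsionFree M

/-- In a finite nonempty family of elements of a valuation ring, one member divides all the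
others. -/
theorem exists_dvd_all {ι : Type*} (s : Finset ι) (hs : s.Nonempty) (a : ι → V) :
    ∃ i ∈ s, ∀ j ∈ s, a i ∣ a j := by
  classical
  induction hs using Finset.Nonempty.cons_induction with
  | singleton i => exact ⟨i, Finset.mem_singleton_self i, fun j hj => by
      rw [Finset.mem_singleton.mp hj]⟩
  | cons i s hi hs ih =>
    obtain ⟨i₀, hi₀, h₀⟩ := ih
    rcases ValuationRing.dvd_total (a i) (a i₀) with h | h
    · refine ⟨i, Finset.mem_cons_self i s, fun j hj => ?_⟩
      rcases Finset.mem_cons.mp hj with rfl | hj
      · exact dvd_rfl
      · exact h.trans (h₀ j hj)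
    · refine ⟨i₀, Finset.mem_cons.mpr (Or.inr hi₀), fun j hj => ?_⟩
      rcases Finset.mem_cons.mp hj with rfl | hj
      · exact h
      · exact h₀ j hj

/-- Coordinates of elements of `𝔪 • ⊤` lie in `𝔪`. -/
theorem repr_mem_of_mem_smul_top {ι : Type*} {M : Type*} [AddCommGroup M] [Module V M]
    (b : Module.Basis ι V M) (I : Ideal V) {m : M} (hm : m ∈ I • (⊤ : Submodule V M)) (i : ι) :
    b.repr m i ∈ I := by
  refine Submodule.smul_induction_on (p := fun x => b.repr x i ∈ I) hm ?_ ?_
  · intro r hr n _
    rw [map_smul, Finsupp.smul_apply, smul_eq_mul]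
    exact I.mul_mem_right _ hr
  · intro x y hx hy
    rw [map_add, Finsupp.add_apply]
    exact I.add_mem hx hy

/-- **Primitive vectors.** Every nonzero vector of a free module of finite rank over a
valuation ring is a nonzero multiple of a primitive vector. -/
theorem exists_primitive {M : Type*} [AddCommGroup M] [Module V M]
    [Module.Free V M] [Module.Finite V M] {m : M} (hm : m ≠ 0) :
    ∃ (c : V) (m' : M), c ≠ 0 ∧ m = c • m' ∧
      m' ∉ IsLocalRing.maximalIdeal V • (⊤ : Submodule V M) := by
  classical
  let b := Module.Free.chooseBasis V M
  haveI : Fintype (Module.Free.ChooseBasisIndex V M) := Module.Free.ChooseBasisIndex.fintype V M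
  set a : Module.Free.ChooseBasisIndex V M → V := fun i => b.repr m i with ha
  have hne : (Finset.univ : Finset (Module.Free.ChooseBasisIndex V M)).Nonempty := by
    by_contra h
    rw [Finset.not_nonempty_iff_eq_empty] at h
    apply hm
    apply b.repr.injective
    ext i
    exact absurd (Finset.mem_univ i) (by rw [h]; simp)
  obtain ⟨i₀, -, h₀⟩ := exists_dvd_all Finset.univ hne a
  have hc : a i₀ ≠ 0 := by
    intro h0
    apply hm
    apply b.repr.injective
    ext i
    have := h₀ i (Finset.mem_univ i)
    rw [h0, zero_dvd_iff] at this
    simpa [a] using this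
  choose q hq using fun i => h₀ i (Finset.mem_univ i)
  refine ⟨a i₀, ∑ i, q i • b i, hc, ?_, ?_⟩
  · apply b.repr.injective
    ext i
    rw [map_smul, map_sum]
    simp only [map_smul, Module.Basis.repr_self, Finsupp.smul_apply, Finsupp.coe_finsetSum,
      Finset.sum_apply, Finsupp.smul_single, smul_eq_mul, mul_one]
    rw [Finset.sum_eq_single i]
    · simp only [Finsupp.single_eq_same]
      exact hq i
    · intro j _ hji
      exact Finsupp.single_eq_of_ne hji.symm
    · intro h
      exact absurd (Finset.mem_univ i) h
  · intro hmem
    have h1 := repr_mem_of_mem_smul_top b (IsLocalRing.maximalIdeal V) hmem i₀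
    have h2 : b.repr (∑ i, q i • b i) i₀ = q i₀ := by
      rw [map_sum]
      simp only [map_smul, Module.Basis.repr_self, Finsupp.coe_finsetSum,
        Finset.sum_apply, Finsupp.smul_single, smul_eq_mul, mul_one]
      rw [Finset.sum_eq_single i₀]
      · simp
      · intro j _ hji
        exact Finsupp.single_eq_of_ne hji.symm
      · intro h
        exact absurd (Finset.mem_univ i₀) h
    rw [h2] at h1
    have h3 : a i₀ * q i₀ = a i₀ * 1 := by rw [← hq i₀, mul_one]
    have h4 : q i₀ = 1 := mul_left_cancel₀ hc h3
    rw [h4] at h1
    exact (IsLocalRing.maximalIdeal V).ne_top_iff_one.mp (IsLocalRing.maximalIdeal.isMaximal V).ne_top h1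

/-- Primitive vectors in finitely generated torsion-free modules. -/
theorem exists_primitive_of_finite_torsionFree {M : Type*} [AddCommGroup M] [Module V M]
    [Module.Finite V M] [Module.IsTorsionFree V M] {m : M} (hm : m ≠ 0) :
    ∃ (c : V) (m' : M), c ≠ 0 ∧ m = c • m' ∧
      m' ∉ IsLocalRing.maximalIdeal V • (⊤ : Submodule V M) := by
  haveI := free_of_finite_of_isTorsionFree (V := V) M
  exact exists_primitive hm

/-- **Primitive vectors, fraction-field form.** `K = Frac V`. Every nonzero element of
`K ⊗[V] M` (`M` finitely generated torsion-free) can be rescaled by a nonzero `c : K` to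
`1 ⊗ m'` with `m'` primitive. -/
theorem exists_primitive_fraction (K : Type*) [Field K] [Algebra V K] [IsFractionRing V K]
    {M : Type*} [AddCommGroup M] [Module V M] [Module.Finite V M] [Module.IsTorsionFree V M]
    {x : K ⊗[V] M} (hx : x ≠ 0) :
    ∃ (c : K) (m' : M), c ≠ 0 ∧ c • x = (1 : K) ⊗ₜ[V] m' ∧
      m' ∉ IsLocalRing.maximalIdeal V • (⊤ : Submodule V M) := by
  obtain ⟨⟨m, d⟩, hd⟩ := IsLocalizedModule.surj (nonZeroDivisors V) (TensorProduct.mk V K M 1) x
  simp only [TensorProduct.mk_apply] at hd
  have hd0 : (algebraMap V K (d : V)) ≠ 0 := by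
    have := nonZeroDivisors.coe_ne_zero d
    simpa using this
  have hdx : (algebraMap V K (d : V)) • x = (1 : K) ⊗ₜ[V] m := by
    rw [← hd, Submonoid.smul_def, algebraMap_smul]
  have hm : m ≠ 0 := by
    rintro rfl
    rw [TensorProduct.tmul_zero] at hdx
    rcases smul_eq_zero.mp hdx with h | h
    · exact hd0 h
    · exact hx h
  obtain ⟨c₁, m', hc₁, hmm', hprim⟩ := exists_primitive_of_finite_torsionFree (V := V) hm
  have hc₁' : algebraMap V K c₁ ≠ 0 := by
    simp [hc₁]
  refine ⟨(algebraMap V K c₁)⁻¹ * algebraMap V K (d : V), m', mul_ne_zero (inv_ne_zero hc₁') hd0,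
    ?_, hprim⟩
  rw [mul_smul, hdx, hmm', TensorProduct.tmul_smul, ← algebraMap_smul K c₁ ((1 : K) ⊗ₜ[V] m'),
    smul_smul, inv_mul_cancel₀ hc₁', one_smul]

/-- Over a valuation ring, the kernel of a linear map from a finitely generated module to a
torsion-free module is a direct summand; the range is finite free. -/
theorem exists_isCompl_ker {F N : Type*} [AddCommGroup F] [Module V F] [AddCommGroup N]
    [Module V N] [Module.Finite V F] [Module.IsTorsionFree V N] (f : F →ₗ[V] N) :
    Module.Free V (LinearMap.range f) ∧ Module.Finite V (LinearMap.range f) ∧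
      ∃ C : Submodule V F, IsCompl (LinearMap.ker f) C := by
  haveI hfin : Module.Finite V (LinearMap.range f) := Module.Finite.range f
  haveI hfree : Module.Free V (LinearMap.range f) :=
    free_of_finite_of_injective (LinearMap.range f).subtype (LinearMap.range f).subtype_injective
  refine ⟨hfree, hfin, ?_⟩
  obtain ⟨s, hs⟩ := Module.projective_lifting_property f.rangeRestrict LinearMap.id
    f.surjective_rangeRestrict
  have hs' : ∀ y, f.rangeRestrict (s y) = y := fun y => by
    have := congrArg (fun g => g y) hs
    simp only [LinearMap.coe_comp, Function.comp_apply, LinearMap.id_coe, id_eq] at this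
    exact this
  refine ⟨LinearMap.range s, ?_⟩
  constructor
  · rw [disjoint_iff_inf_le]
    rintro x ⟨hxk, y, rfl⟩
    have h1 : f.rangeRestrict (s y) = 0 := by
      apply Subtype.ext
      simpa using hxk
    rw [hs'] at h1
    simp [h1]
  · rw [codisjoint_iff_le_sup]
    intro x _
    have hx : x = (x - s (f.rangeRestrict x)) + s (f.rangeRestrict x) := by abel
    rw [hx]
    refine Submodule.add_mem_sup ?_ ⟨_, rfl⟩
    rw [LinearMap.mem_ker, map_sub]
    have := congrArg Subtype.val (hs' (f.rangeRestrict x))
    have h2 : ∀ z, (f.rangeRestrict z : N) = f z := fun z => rfl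
    rw [h2, h2] at this
    rw [this, sub_self]

/-- Over a valuation ring, the kernel of a linear map from a finite free (more generally finite
torsion-free) module to a torsion-free module is finite free. -/
theorem ker_free_finite {F N : Type*} [AddCommGroup F] [Module V F] [AddCommGroup N]
    [Module V N] [Module.Finite V F] [Module.IsTorsionFree V F] [Module.IsTorsionFree V N]
    (f : F →ₗ[V] N) :
    Module.Free V (LinearMap.ker f) ∧ Module.Finite V (LinearMap.ker f) := by
  obtain ⟨-, -, C, hC⟩ := exists_isCompl_ker f
  haveI hfin : Module.Finite V (LinearMap.ker f) := by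
    have hsurj : Function.Surjective (Submodule.projectionOnto _ _ hC) :=
      Submodule.projectionOnto_surjective hC
    exact Module.Finite.of_surjective _ hsurj
  exact ⟨free_of_finite_of_injective (LinearMap.ker f).subtype (LinearMap.ker f).subtype_injective,
    hfin⟩

end ValuationRing

section ValuationSubring

/-- The results apply to `↥A` for a valuation subring `A` of a field. -/
example {K : Type*} [Field K] (A : ValuationSubring K) (M : Type*) [AddCommGroup M] [Module A M]
    [Module.Finite A M] [Module.IsTorsionFree A M] : Module.Free A M :=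
  free_of_finite_of_isTorsionFree M

end ValuationSubring

end Fermat.Agent.S25.H971
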